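import Fermat.Agent.HeckeHom.PeriodMap
import Mathlib.Algebra.FreeAlgebra
import Mathlib.GroupTheory.Schreier
import Mathlib.LinearAlgebra.Matrix.FixedDetMatrices
import Mathlib.LinearAlgebra.FreeModule.PID
import Mathlib.RingTheory.TensorProduct.Basic

/-!
The integral structure: for every torsion-free commutative ring `R` the anemic Hecke algebra
acts faithfully on `parabolicHoms R (Gamma0 N) R` (given Eichler–Shimura S21).
-/

set_option autoImplicit false

noncomputable section

namespace Fermat.Agent.HeckeHom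

open Matrix.SpecialLinearGroup UpperHalfPlane CongruenceSubgroup
open ModularForm ModularCurve.Period
open scoped MatrixGroups

section FG

instance fg_SL2Z : Group.FG SL(2, ℤ) := by
  rw [Group.fg_iff]
  exact ⟨{ModularGroup.S, ModularGroup.T}, SpecialLinearGroup.SL2Z_generators, by simp⟩

instance fg_Gamma0 (N : ℕ) [NeZero N] : Group.FG (Gamma0 N) := inferInstance

end FG

section Span

variable {G : Type*} [Group G] {A : Type*} [AddCommGroup A]

/-- A homomorphism from a f.g. group to a torsion-free group is a finite sum of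
`ℤ`-valued homomorphisms (with the same vanishing) times elements. -/
theorem exists_decomp [Group.FG G] [IsAddTorsionFree A] (ψ : Additive G →+ A) :
    ∃ (n : ℕ) (a : Fin n → A) (φ : Fin n → (Additive G →+ ℤ)),
      (∀ g, ψ g = 0 → ∀ i, φ i g = 0) ∧ ∀ g, ψ g = ∑ i, φ i g • a i := by
  have h1 : AddGroup.FG (Additive G) := inferInstance
  have h2 : AddGroup.FG ψ.range := inferInstance
  have h3 : Module.Finite ℤ ψ.range := Module.Finite.iff_addGroup_fg.mpr h2
  have h4 : Module.Free ℤ ψ.range := inferInstance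
  let b := Module.finBasis ℤ ψ.range
  refine ⟨_, fun i => (b i : A), fun i =>
    ((b.coord i).toAddMonoidHom).comp ψ.rangeRestrict, fun g hg i => ?_, fun g => ?_⟩
  · have : ψ.rangeRestrict g = 0 := Subtype.ext hg
    rw [AddMonoidHom.comp_apply, this, map_zero]
  · have h := b.sum_repr (ψ.rangeRestrict g)
    have h' := congrArg Subtype.val h
    rw [AddSubmonoidClass.coe_finsetSum] at h'
    exact h'.symm

end Span

section Theta

variable (N : ℕ) [NeZero N] (S : Set ℕ)

/-- index set: primes `l ∤ N`, `l ∉ S`. -/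
abbrev Idx : Type := {l : ℕ // l.Prime ∧ ¬ l ∣ N ∧ l ∉ S}

/-- `T_l` on `parabolicHoms R (Gamma0 N) A` -/
def parHecke (R : Type*) [CommRing R] (A : Type*) [AddCommGroup A] [Module R A]
    {N l : ℕ} (hl : l.Prime) (hlN : ¬ l ∣ N) : Module.End R (parabolicHoms R (Gamma0 N) A) :=
  (heckeHomLin R hl hlN A).restrict fun _ hψ => heckeHom_mem_parabolicHoms hl hlN hψ

@[simp] theorem coe_parHecke (R : Type*) [CommRing R] {A : Type*} [AddCommGroup A] [Module R A]
    {N l : ℕ} (hl : l.Prime) (hlN : ¬ l ∣ N) (ψ : parabolicHoms R (Gamma0 N) A) :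
    (parHecke R A hl hlN ψ : Additive (Gamma0 N) →+ A) = heckeHom hl hlN A ψ := rfl

/-- action of the free algebra on `parabolicHoms` -/
def actPar (R : Type*) [CommRing R] (A : Type*) [AddCommGroup A] [Module R A] :
    FreeAlgebra ℤ (Idx N S) →ₐ[ℤ] Module.End R (parabolicHoms R (Gamma0 N) A) :=
  FreeAlgebra.lift ℤ fun i => parHecke R A i.2.1 i.2.2.1

/-- action of the free algebra on `S_2` -/
def actCusp : FreeAlgebra ℤ (Idx N S) →ₐ[ℤ] Module.End ℂ (CuspForm (Gamma0 N) 2) :=
  FreeAlgebra.lift ℤ fun i => CuspForm.heckeTLin 2 i.2.1 i.2.2.1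

variable {N S}

theorem actPar_natural {R R' : Type*} [CommRing R] [CommRing R'] {A B : Type*} [AddCommGroup A]
    [AddCommGroup B] [Module R A] [Module R' B] (f : A →+ B) (x : FreeAlgebra ℤ (Idx N S)) :
    ∀ (ψ : parabolicHoms R (Gamma0 N) A) (ψ' : parabolicHoms R' (Gamma0 N) B),
      (ψ' : Additive (Gamma0 N) →+ B) = f.comp ψ →
      (actPar N S R' B x ψ' : Additive (Gamma0 N) →+ B) =
        f.comp (actPar N S R A x ψ : Additive (Gamma0 N) →+ A) := by
  induction x using FreeAlgebra.induction with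
  | grade0 n =>
    intro ψ ψ' h
    rw [AlgHom.commutes, AlgHom.commutes, Module.algebraMap_end_apply, Module.algebraMap_end_apply]
    have e1 : ((n • ψ' : parabolicHoms R' (Gamma0 N) B) : Additive (Gamma0 N) →+ B) =
      n • (ψ' : Additive (Gamma0 N) →+ B) := rfl
    have e2 : ((n • ψ : parabolicHoms R (Gamma0 N) A) : Additive (Gamma0 N) →+ A) =
      n • (ψ : Additive (Gamma0 N) →+ A) := rfl
    rw [e1, e2, h]
    ext g
    simp
  | grade1 i =>
    intro ψ ψ' h
    rw [actPar, actPar, FreeAlgebra.lift_ι_apply, FreeAlgebra.lift_ι_apply, coe_parHecke,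
      coe_parHecke, h, heckeHom_comp]
  | mul x y hx hy =>
    intro ψ ψ' h
    rw [map_mul, map_mul]
    exact hx _ _ (hy _ _ h)
  | add x y hx hy =>
    intro ψ ψ' h
    rw [map_add, map_add, LinearMap.add_apply, LinearMap.add_apply]
    have e1 := hx _ _ h
    have e2 := hy _ _ h
    rw [Submodule.coe_add, Submodule.coe_add, e1, e2]
    ext g
    simp

theorem periodHomPair_actCusp (hES : LinearMap.range (ModularCurve.periodHomPair N)
      = parabolicHoms ℂ (Gamma0 N) ℂ) (x : FreeAlgebra ℤ (Idx N S)) :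
    ∀ (f g : CuspForm (Gamma0 N) 2) (ψ : parabolicHoms ℂ (Gamma0 N) ℂ),
      (ψ : Additive (Gamma0 N) →+ ℂ) = ModularCurve.periodHomPair N (f, g) →
      (actPar N S ℂ ℂ x ψ : Additive (Gamma0 N) →+ ℂ) =
        ModularCurve.periodHomPair N (actCusp N S x f, actCusp N S x g) := by
  induction x using FreeAlgebra.induction with
  | grade0 n =>
    intro f g ψ h
    rw [AlgHom.commutes, AlgHom.commutes, Module.algebraMap_end_apply, Module.algebraMap_end_apply,
      Module.algebraMap_end_apply]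
    have e1 : ((n • ψ : parabolicHoms ℂ (Gamma0 N) ℂ) : Additive (Gamma0 N) →+ ℂ) =
      n • (ψ : Additive (Gamma0 N) →+ ℂ) := rfl
    rw [e1, h, ← map_zsmul, Prod.smul_mk]
  | grade1 i =>
    intro f g ψ h
    rw [actPar, actCusp, FreeAlgebra.lift_ι_apply, FreeAlgebra.lift_ι_apply, coe_parHecke, h,
      ← periodHomPair_heckeTLin]
  | mul x y hx hy =>
    intro f g ψ h
    rw [map_mul, map_mul]
    exact hx _ _ _ (hy _ _ _ h)
  | add x y hx hy =>
    intro f g ψ h
    rw [map_add, map_add, LinearMap.add_apply]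
    have e1 := hx _ _ _ h
    have e2 := hy _ _ _ h
    rw [Submodule.coe_add, e1, e2, ← map_add, Prod.mk_add_mk]
    rfl

theorem actPar_eq_zero_iff {R : Type*} [CommRing R] [CharZero R] [IsAddTorsionFree R]
    (x : FreeAlgebra ℤ (Idx N S)) : actPar N S R R x = 0 ↔ actPar N S ℤ ℤ x = 0 := by
  constructor
  · intro h
    refine LinearMap.ext fun ψ => Subtype.ext ?_
    let ψ' : parabolicHoms R (Gamma0 N) R :=
      ⟨(Int.castAddHom R).comp (ψ : Additive (Gamma0 N) →+ ℤ), fun γ hγ => by
        rw [AddMonoidHom.comp_apply, ψ.2 γ hγ, map_zero]⟩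
    have h1 := actPar_natural (R := ℤ) (R' := R) (Int.castAddHom R) x ψ ψ' rfl
    rw [h] at h1
    refine AddMonoidHom.ext fun g => ?_
    have h2 := DFunLike.congr_fun h1 g
    have h3 : (((actPar N S ℤ ℤ x ψ : Additive (Gamma0 N) →+ ℤ) g : ℤ) : R) = 0 := h2.symm
    exact_mod_cast h3
  · intro h
    refine LinearMap.ext fun ψ => ?_
    obtain ⟨n, a, φ, h1, h2⟩ := exists_decomp (ψ : Additive (Gamma0 N) →+ R)
    let φ' : Fin n → parabolicHoms ℤ (Gamma0 N) ℤ := fun i =>
      ⟨φ i, fun γ hγ => h1 _ (ψ.2 γ hγ) i⟩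
    let φR : Fin n → parabolicHoms R (Gamma0 N) R := fun i =>
      ⟨(Int.castAddHom R).comp (φ i), fun γ hγ => by
        rw [AddMonoidHom.comp_apply, h1 _ (ψ.2 γ hγ) i, map_zero]⟩
    have h3 : ψ = ∑ i, a i • φR i := by
      apply Subtype.ext
      refine AddMonoidHom.ext fun g => ?_
      rw [h2 g, AddSubmonoidClass.coe_finsetSum, AddMonoidHom.finsetSum_apply]
      refine Finset.sum_congr rfl fun i _ => ?_
      change φ i g • a i = a i * ((φ i g : ℤ) : R)
      rw [zsmul_eq_mul, mul_comm]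
    rw [h3, map_sum, LinearMap.zero_apply]
    refine Finset.sum_eq_zero fun i _ => ?_
    rw [map_smul]
    have h4 := actPar_natural (R := ℤ) (R' := R) (Int.castAddHom R) x (φ' i) (φR i) rfl
    have h5 : actPar N S R R x (φR i) = 0 := by
      apply Subtype.ext
      rw [h4, h]
      ext g
      simp
    rw [h5, smul_zero]

theorem actCusp_eq_zero_iff (hES : Function.Injective (ModularCurve.periodHomPair N) ∧
      LinearMap.range (ModularCurve.periodHomPair N) = parabolicHoms ℂ (Gamma0 N) ℂ)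
    (x : FreeAlgebra ℤ (Idx N S)) : actCusp N S x = 0 ↔ actPar N S ℂ ℂ x = 0 := by
  constructor
  · intro h
    refine LinearMap.ext fun ψ => Subtype.ext ?_
    have h1 : (ψ : Additive (Gamma0 N) →+ ℂ) ∈ LinearMap.range (ModularCurve.periodHomPair N) := by
      rw [hES.2]; exact ψ.2
    obtain ⟨⟨f, g⟩, h2⟩ := h1
    rw [periodHomPair_actCusp hES.2 x f g ψ h2.symm, h]
    exact map_zero _
  · intro h
    refine LinearMap.ext fun f => ?_
    let ψ : parabolicHoms ℂ (Gamma0 N) ℂ := ⟨ModularCurve.periodHomPair N (f, 0), by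
      rw [← hES.2]; exact ⟨_, rfl⟩⟩
    have h1 := periodHomPair_actCusp hES.2 x f 0 ψ rfl
    rw [h] at h1
    have h2 : ModularCurve.periodHomPair N (actCusp N S x f, actCusp N S x 0) =
      ModularCurve.periodHomPair N 0 := by
      rw [← h1, map_zero]; rfl
    exact congrArg Prod.fst (hES.1 h2)

theorem range_actCusp (hS : ∀ q : ℕ, q.Prime → q ∣ N → q ∈ S) :
    (actCusp N S).range = CuspForm.heckeAlgebra N 2 S := by
  rw [actCusp, ← Algebra.adjoin_range_eq_range_freeAlgebra_lift, CuspForm.heckeAlgebra]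
  congr 1
  ext T
  constructor
  · rintro ⟨i, rfl⟩
    exact Or.inl ⟨i.1, i.2.1, i.2.2.1, i.2.2.2, rfl⟩
  · rintro (⟨ℓ, hℓ, hℓN, hℓS, rfl⟩ | ⟨q, hqN, hq, hqS, rfl⟩)
    · exact ⟨⟨ℓ, hℓ, hℓN, hℓS⟩, rfl⟩
    · exact absurd (hS q hq hqN) hqS

theorem actCusp_mem (hS : ∀ q : ℕ, q.Prime → q ∣ N → q ∈ S) (x : FreeAlgebra ℤ (Idx N S)) :
    actCusp N S x ∈ CuspForm.heckeAlgebra N 2 S := by
  rw [← range_actCusp hS]; exact ⟨x, rfl⟩

/-- the free algebra surjects onto the anemic Hecke algebra -/
def toHecke (hS : ∀ q : ℕ, q.Prime → q ∣ N → q ∈ S) :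
    FreeAlgebra ℤ (Idx N S) →ₐ[ℤ] CuspForm.heckeAlgebra N 2 S :=
  (actCusp N S).codRestrict _ (actCusp_mem hS)

theorem toHecke_surjective (hS : ∀ q : ℕ, q.Prime → q ∣ N → q ∈ S) :
    Function.Surjective (toHecke hS) := by
  rintro ⟨T, hT⟩
  rw [← range_actCusp hS] at hT
  obtain ⟨x, hx⟩ := hT
  exact ⟨x, Subtype.ext hx⟩

theorem toHecke_ι (hS : ∀ q : ℕ, q.Prime → q ∣ N → q ∈ S) {ℓ : ℕ} (hℓ : ℓ.Prime)
    (hℓN : ¬ ℓ ∣ N) (hℓS : ℓ ∉ S) :
    toHecke hS (FreeAlgebra.ι ℤ ⟨ℓ, hℓ, hℓN, hℓS⟩) = CuspForm.heckeAlgebra.T hℓ hℓN hℓS := by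
  apply Subtype.ext
  change actCusp N S (FreeAlgebra.ι ℤ ⟨ℓ, hℓ, hℓN, hℓS⟩) = CuspForm.heckeTLin 2 hℓ hℓN
  rw [actCusp, FreeAlgebra.lift_ι_apply]

/-- Eichler–Shimura (S21) at level `N`. -/
def ES (N : ℕ) [NeZero N] : Prop := Function.Injective (ModularCurve.periodHomPair N) ∧
      LinearMap.range (ModularCurve.periodHomPair N) = parabolicHoms ℂ (Gamma0 N) ℂ

theorem toHecke_eq_zero_iff (hES : ES N)
    (hS : ∀ q : ℕ, q.Prime → q ∣ N → q ∈ S)
    (R : Type*) [CommRing R] [CharZero R] [IsAddTorsionFree R] (x : FreeAlgebra ℤ (Idx N S)) :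
    toHecke hS x = 0 ↔ actPar N S R R x = 0 := by
  rw [actPar_eq_zero_iff, ← actPar_eq_zero_iff (R := ℂ), ← actCusp_eq_zero_iff hES]
  exact Subtype.ext_iff

theorem toHecke_eq_iff (hES : ES N)
    (hS : ∀ q : ℕ, q.Prime → q ∣ N → q ∈ S)
    (R : Type*) [CommRing R] [CharZero R] [IsAddTorsionFree R] (x y : FreeAlgebra ℤ (Idx N S)) :
    toHecke hS x = toHecke hS y ↔ actPar N S R R x = actPar N S R R y := by
  rw [← sub_eq_zero, ← map_sub, toHecke_eq_zero_iff hES hS R, map_sub, sub_eq_zero]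

/-- The faithful action of the anemic Hecke algebra on `parabolicHoms R (Gamma0 N) R`. -/
def theta (hES : ES N) (hS : ∀ q : ℕ, q.Prime → q ∣ N → q ∈ S)
    (R : Type*) [CommRing R] [CharZero R] [IsAddTorsionFree R] :
    CuspForm.heckeAlgebra N 2 S →+* Module.End R (parabolicHoms R (Gamma0 N) R) where
  toFun T := actPar N S R R (Function.surjInv (toHecke_surjective hS) T)
  map_one' := by
    rw [← map_one (actPar N S R R), ← toHecke_eq_iff hES hS, Function.surjInv_eq (toHecke_surjective hS), map_one]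
  map_mul' T T' := by
    rw [← map_mul (actPar N S R R), ← toHecke_eq_iff hES hS, Function.surjInv_eq (toHecke_surjective hS),
      map_mul, Function.surjInv_eq (toHecke_surjective hS),
      Function.surjInv_eq (toHecke_surjective hS)]
  map_zero' := by
    rw [← map_zero (actPar N S R R), ← toHecke_eq_iff hES hS, Function.surjInv_eq (toHecke_surjective hS), map_zero]
  map_add' T T' := by
    rw [← map_add (actPar N S R R), ← toHecke_eq_iff hES hS, Function.surjInv_eq (toHecke_surjective hS),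
      map_add, Function.surjInv_eq (toHecke_surjective hS),
      Function.surjInv_eq (toHecke_surjective hS)]

theorem theta_toHecke (hES : ES N) (hS : ∀ q : ℕ, q.Prime → q ∣ N → q ∈ S)
    (R : Type*) [CommRing R] [CharZero R] [IsAddTorsionFree R] (x : FreeAlgebra ℤ (Idx N S)) :
    theta hES hS R (toHecke hS x) = actPar N S R R x :=
  (toHecke_eq_iff hES hS R _ _).mp (Function.surjInv_eq _ _)

theorem theta_T (hES : ES N) (hS : ∀ q : ℕ, q.Prime → q ∣ N → q ∈ S)
    (R : Type*) [CommRing R] [CharZero R] [IsAddTorsionFree R] {ℓ : ℕ} (hℓ : ℓ.Prime)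
    (hℓN : ¬ ℓ ∣ N) (hℓS : ℓ ∉ S) :
    theta hES hS R (CuspForm.heckeAlgebra.T hℓ hℓN hℓS) = parHecke R R hℓ hℓN := by
  rw [← toHecke_ι hS, theta_toHecke, actPar, FreeAlgebra.lift_ι_apply]

theorem theta_injective (hES : ES N) (hS : ∀ q : ℕ, q.Prime → q ∣ N → q ∈ S)
    (R : Type*) [CommRing R] [CharZero R] [IsAddTorsionFree R] :
    Function.Injective (theta hES hS R) := by
  rw [injective_iff_map_eq_zero]
  intro T hT
  obtain ⟨x, rfl⟩ := toHecke_surjective hS T
  rw [theta_toHecke] at hT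
  exact (toHecke_eq_zero_iff hES hS R x).mpr hT

/-- naturality of `theta` in the coefficient ring. -/
theorem theta_natural (hES : ES N) (hS : ∀ q : ℕ, q.Prime → q ∣ N → q ∈ S)
    {R R' : Type*} [CommRing R] [CharZero R] [IsAddTorsionFree R]
    [CommRing R'] [CharZero R'] [IsAddTorsionFree R'] (f : R →+ R')
    (T : CuspForm.heckeAlgebra N 2 S)
    (ψ : parabolicHoms R (Gamma0 N) R) (ψ' : parabolicHoms R' (Gamma0 N) R')
    (h : (ψ' : Additive (Gamma0 N) →+ R') = f.comp ψ) :
    (theta hES hS R' T ψ' : Additive (Gamma0 N) →+ R') =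
      f.comp (theta hES hS R T ψ : Additive (Gamma0 N) →+ R) := by
  obtain ⟨x, rfl⟩ := toHecke_surjective hS T
  rw [theta_toHecke, theta_toHecke]
  exact actPar_natural f x ψ ψ' h

/-- The faithful action of the anemic Hecke algebra on `parabolicHoms R (Gamma0 N) R`. -/
theorem exists_theta (hES : Function.Injective (ModularCurve.periodHomPair N) ∧
      LinearMap.range (ModularCurve.periodHomPair N) = parabolicHoms ℂ (Gamma0 N) ℂ)
    (hS : ∀ q : ℕ, q.Prime → q ∣ N → q ∈ S)
    (R : Type*) [CommRing R] [CharZero R] [IsAddTorsionFree R] :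
    ∃ θ : CuspForm.heckeAlgebra N 2 S →+* Module.End R (parabolicHoms R (Gamma0 N) R),
      Function.Injective θ ∧
      ∀ (ℓ : ℕ) (hℓ : ℓ.Prime) (hℓN : ¬ ℓ ∣ N) (hℓS : ℓ ∉ S),
        θ (CuspForm.heckeAlgebra.T hℓ hℓN hℓS) = parHecke R R hℓ hℓN :=
  ⟨theta hES hS R, theta_injective hES hS R, fun _ hℓ hℓN hℓS => theta_T hES hS R hℓ hℓN hℓS⟩

/-- every element of `R ⊗ M` (`R` torsion-free) is a sum of `r ⊗ m` with the `r`'s
linearly independent over `ℤ`. -/
theorem exists_indep_repr {R : Type*} [AddCommGroup R] [IsAddTorsionFree R] {M : Type*}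
    [AddCommGroup M] (x : TensorProduct ℤ R M) :
    ∃ (n : ℕ) (r : Fin n → R) (m : Fin n → M), LinearIndependent ℤ r ∧
      x = ∑ i, TensorProduct.tmul ℤ (r i) (m i) := by
  classical
  obtain ⟨ι, _, a, m, hx⟩ : ∃ (ι : Type) (_ : Fintype ι) (a : ι → R) (m : ι → M),
      x = ∑ i, TensorProduct.tmul ℤ (a i) (m i) := by
    induction x using TensorProduct.induction_on with
    | zero => exact ⟨Empty, inferInstance, fun i => i.elim, fun i => i.elim, by simp⟩
    | tmul a m => exact ⟨Unit, inferInstance, fun _ => a, fun _ => m, by simp⟩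
    | add x y hx hy =>
      obtain ⟨ι, _, a, m, hx⟩ := hx
      obtain ⟨κ, _, b, n, hy⟩ := hy
      exact ⟨ι ⊕ κ, inferInstance, Sum.elim a b, Sum.elim m n, by
        simp [Fintype.sum_sum_type, hx, hy]⟩
  let V : Submodule ℤ R := Submodule.span ℤ (Set.range a)
  have : Module.Finite ℤ V := Module.Finite.span_of_finite ℤ (Set.finite_range a)
  have : Module.Free ℤ V := inferInstance
  let b := Module.finBasis ℤ V
  have ha : ∀ i, a i ∈ V := fun i => Submodule.subset_span ⟨i, rfl⟩
  refine ⟨_, fun k => (b k : R), fun k => ∑ i, b.repr ⟨a i, ha i⟩ k • m i, ?_, ?_⟩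
  · exact b.linearIndependent.map' V.subtype (Submodule.ker_subtype V)
  · rw [hx]
    have h1 : ∀ i, a i = ∑ k, b.repr ⟨a i, ha i⟩ k • (b k : R) := by
      intro i
      have h := congrArg Subtype.val (b.sum_repr ⟨a i, ha i⟩)
      rw [AddSubmonoidClass.coe_finsetSum] at h
      exact h.symm
    calc ∑ i, TensorProduct.tmul ℤ (a i) (m i)
        = ∑ i, ∑ k, TensorProduct.tmul ℤ (b k : R) (b.repr ⟨a i, ha i⟩ k • m i) := by
          refine Finset.sum_congr rfl fun i _ => ?_
          conv_lhs => rw [h1 i]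
          rw [TensorProduct.sum_tmul]
          refine Finset.sum_congr rfl fun k _ => ?_
          rw [TensorProduct.smul_tmul]
      _ = _ := by
          rw [Finset.sum_comm]
          refine Finset.sum_congr rfl fun k _ => ?_
          rw [TensorProduct.tmul_sum]

open scoped TensorProduct in
/-- The `R`-linear extension of `theta`. -/
def thetaR (hES : ES N) (hS : ∀ q : ℕ, q.Prime → q ∣ N → q ∈ S)
    (R : Type*) [CommRing R] [CharZero R] [IsAddTorsionFree R] :
    R ⊗[ℤ] (CuspForm.heckeAlgebra N 2 S) →ₐ[R] Module.End R (parabolicHoms R (Gamma0 N) R) :=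
  Algebra.TensorProduct.lift (Algebra.ofId R _)
    { theta hES hS R with
      commutes' := fun n => by
        change theta hES hS R (algebraMap ℤ _ n) = _
        rw [eq_intCast, eq_intCast, map_intCast] }
    fun r _ => Algebra.commutes r _

open scoped TensorProduct in
theorem thetaR_tmul (hES : ES N) (hS : ∀ q : ℕ, q.Prime → q ∣ N → q ∈ S)
    (R : Type*) [CommRing R] [CharZero R] [IsAddTorsionFree R] (r : R)
    (T : CuspForm.heckeAlgebra N 2 S) :
    thetaR hES hS R (r ⊗ₜ[ℤ] T) = r • theta hES hS R T := by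
  rw [thetaR, Algebra.TensorProduct.lift_tmul]
  change algebraMap R _ r * theta hES hS R T = _
  rw [Algebra.smul_def]

/-- `R ⊗ 𝕋` acts faithfully on `parabolicHoms R (Gamma0 N) R`. -/
theorem thetaR_injective (hES : ES N) (hS : ∀ q : ℕ, q.Prime → q ∣ N → q ∈ S)
    (R : Type*) [CommRing R] [CharZero R] [IsAddTorsionFree R] :
    Function.Injective (thetaR hES hS R) := by
  rw [injective_iff_map_eq_zero]
  intro x hx
  obtain ⟨n, r, U, hr, rfl⟩ := exists_indep_repr x
  have key : ∀ k, U k = 0 := by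
    intro k
    apply theta_injective hES hS ℤ
    rw [map_zero]
    refine LinearMap.ext fun e => Subtype.ext (AddMonoidHom.ext fun g => ?_)
    let e' : parabolicHoms R (Gamma0 N) R :=
      ⟨(Int.castAddHom R).comp (e : Additive (Gamma0 N) →+ ℤ), fun γ hγ => by
        rw [AddMonoidHom.comp_apply, e.2 γ hγ, map_zero]⟩
    have h1 : ∀ i, (theta hES hS R (U i) e' : Additive (Gamma0 N) →+ R) =
        (Int.castAddHom R).comp (theta hES hS ℤ (U i) e : Additive (Gamma0 N) →+ ℤ) :=
      fun i => theta_natural hES hS (Int.castAddHom R) (U i) e e' rfl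
    rw [map_sum] at hx
    have h2 := DFunLike.congr_fun hx e'
    have h3 := DFunLike.congr_fun (congrArg Subtype.val h2) g
    rw [LinearMap.sum_apply, AddSubmonoidClass.coe_finsetSum, AddMonoidHom.finsetSum_apply] at h3
    have h4 : ∑ i, ((theta hES hS ℤ (U i) e : Additive (Gamma0 N) →+ ℤ) g) • r i = 0 := by
      rw [← show _ = (0 : R) from h3]
      refine Finset.sum_congr rfl fun i _ => ?_
      rw [thetaR_tmul]
      change _ = r i * (theta hES hS R (U i) e' : Additive (Gamma0 N) →+ R) g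
      rw [h1 i, zsmul_eq_mul, mul_comm]
      rfl
    exact Fintype.linearIndependent_iff.mp hr _ h4 k
  refine Finset.sum_eq_zero fun k _ => ?_
  rw [key k, TensorProduct.tmul_zero]

end Theta

section Finite

/-- evaluation at generators -/
def evalLin {G : Type*} [Group G] (R : Type*) [CommRing R] (A : Type*) [AddCommGroup A]
    [Module R A] {n : ℕ} (g : Fin n → G) : (Additive G →+ A) →ₗ[R] (Fin n → A) where
  toFun φ i := φ (Additive.ofMul (g i))
  map_add' _ _ := rfl
  map_smul' _ _ := rfl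

theorem exists_evalLin_injective (G : Type*) [Group G] [Group.FG G] :
    ∃ (n : ℕ) (g : Fin n → G), ∀ (R : Type*) [CommRing R] (A : Type*) [AddCommGroup A]
      [Module R A], Function.Injective (evalLin (G := G) R A g) := by
  obtain ⟨S, hS⟩ := Group.fg_iff.mp ‹Group.FG G›
  obtain ⟨n, e⟩ := hS.2.exists_equiv_fin S
  obtain ⟨e⟩ := e
  refine ⟨n, fun i => (e.symm i : G), fun R _ A _ _ => ?_⟩
  intro φ ψ h
  have h1 : ∀ s ∈ S, φ (Additive.ofMul s) = ψ (Additive.ofMul s) := by
    intro s hs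
    have := congrFun h (e ⟨s, hs⟩)
    change φ (Additive.ofMul ((e.symm (e ⟨s, hs⟩) : S) : G)) =
      ψ (Additive.ofMul ((e.symm (e ⟨s, hs⟩) : S) : G)) at this
    simpa using this
  have h2 : (⊤ : Subgroup G) ≤ (AddMonoidHom.toMultiplicativeRight φ).eqLocus (AddMonoidHom.toMultiplicativeRight ψ) := by
    rw [← hS.1, Subgroup.closure_le]
    intro s hs
    exact h1 s hs
  refine AddMonoidHom.ext fun γ => ?_
  exact h2 (Subgroup.mem_top (Additive.toMul γ))

variable (N : ℕ) [NeZero N] (R : Type*) [CommRing R]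

instance finite_parabolicHoms [IsNoetherianRing R] (A : Type*) [AddCommGroup A] [Module R A]
    [Module.Finite R A] : Module.Finite R (parabolicHoms R (Gamma0 N) A) := by
  obtain ⟨n, g, hg⟩ := exists_evalLin_injective (Gamma0 N)
  have : IsNoetherian R A := isNoetherian_of_isNoetherianRing_of_finite R A
  have : IsNoetherian R (parabolicHoms R (Gamma0 N) A) :=
    isNoetherian_of_injective ((evalLin R A g).comp (Submodule.subtype _))
      ((hg R A).comp Subtype.val_injective)
  infer_instance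

instance free_parabolicHoms [IsDomain R] [IsPrincipalIdealRing R] :
    Module.Free R (parabolicHoms R (Gamma0 N) R) := by
  obtain ⟨n, g, hg⟩ := exists_evalLin_injective (Gamma0 N)
  have hi : Function.Injective
      ((evalLin R R g).comp (Submodule.subtype (parabolicHoms R (Gamma0 N) R))) :=
    (hg R R).comp Subtype.val_injective
  exact Module.Free.of_equiv (LinearEquiv.ofInjective _ hi).symm

end Finite

end Fermat.Agent.HeckeHom

end
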