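import Mathlib.NumberTheory.ModularForms.CongruenceSubgroups
import Fermat.Prelude.Def_ModularCurve_PeriodHomPair
import Fermat.Prelude.Def_ModularForm_HeckeOperatorForms

/-!
Hecke operators `T_l` (`l` prime, `l` not dividing `N`) on `Hom(Gamma0(N), A)`.
-/

set_option autoImplicit false

noncomputable section

namespace Fermat.Agent.HeckeHom

open Matrix.SpecialLinearGroup UpperHalfPlane CongruenceSubgroup
open P2MW.S_ModularForm_heckeT_slash_eq_self_of_mem_Gamma0.ModularForm.HeckeSlashInvariance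
open scoped MatrixGroups

section Cocycle

variable {N l : ℕ}

theorem mapGL_inj {g h : SL(2, ℤ)} (e : (mapGL ℝ g : GL (Fin 2) ℝ) = mapGL ℝ h) : g = h := by
  ext i j
  have := congrArg (fun M : GL (Fin 2) ℝ => M i j) e
  simp only [mapGL_apply] at this
  exact_mod_cast this

theorem redMatrix_mul [Fact l.Prime] (g h : SL(2, ℤ)) :
    redMatrix l (g * h) = redMatrix l h * redMatrix l g := by
  ext i j
  fin_cases i <;> fin_cases j <;>
    simp [redMatrix, Matrix.mul_apply, Fin.sum_univ_two] <;> ring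

theorem redMatrix_one [Fact l.Prime] : redMatrix l (1 : SL(2, ℤ)) = 1 := by
  ext i j
  fin_cases i <;> fin_cases j <;> simp [redMatrix]

theorem exists_cocyc [Fact l.Prime] (hlN : ¬ l ∣ N) (γ : Gamma0 N) (x : OnePoint (ZMod l)) :
    ∃ δ : Gamma0 N, heckeRep l x * mapGL ℝ (γ : SL(2, ℤ)) =
      mapGL ℝ (δ : SL(2, ℤ)) * heckeRep l (redMatrix l (γ : SL(2, ℤ)) • x) := by
  have hg : (N : ℤ) ∣ (γ : SL(2, ℤ)) 1 0 :=
    (ZMod.intCast_zmod_eq_zero_iff_dvd _ _).mp (Gamma0_mem.mp γ.2)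
  obtain ⟨g', hg', e⟩ := heckeRep_mul hlN (γ : SL(2, ℤ)) hg x
  exact ⟨⟨g', Gamma0_mem.mpr ((ZMod.intCast_zmod_eq_zero_iff_dvd _ _).mpr hg')⟩, e⟩

/-- The cocycle `γ_x` with `α_x γ = γ_x α_{γ x}`. -/
def cocyc [Fact l.Prime] (hlN : ¬ l ∣ N) (γ : Gamma0 N) (x : OnePoint (ZMod l)) : Gamma0 N :=
  (exists_cocyc hlN γ x).choose

theorem cocyc_spec [Fact l.Prime] (hlN : ¬ l ∣ N) (γ : Gamma0 N) (x : OnePoint (ZMod l)) :
    heckeRep l x * mapGL ℝ (γ : SL(2, ℤ)) =
      mapGL ℝ (cocyc hlN γ x : SL(2, ℤ)) * heckeRep l (redMatrix l (γ : SL(2, ℤ)) • x) :=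
  (exists_cocyc hlN γ x).choose_spec

theorem eq_cocyc [Fact l.Prime] (hlN : ¬ l ∣ N) (γ : Gamma0 N) (x : OnePoint (ZMod l))
    (δ : Gamma0 N) (h : heckeRep l x * mapGL ℝ (γ : SL(2, ℤ)) =
      mapGL ℝ (δ : SL(2, ℤ)) * heckeRep l (redMatrix l (γ : SL(2, ℤ)) • x)) :
    δ = cocyc hlN γ x := by
  apply Subtype.ext
  apply mapGL_inj
  have := h.symm.trans (cocyc_spec hlN γ x)
  exact mul_right_cancel this

theorem cocyc_mul [Fact l.Prime] (hlN : ¬ l ∣ N) (γ δ : Gamma0 N) (x : OnePoint (ZMod l)) :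
    cocyc hlN (γ * δ) x =
      cocyc hlN γ x * cocyc hlN δ (redMatrix l (γ : SL(2, ℤ)) • x) := by
  symm
  apply eq_cocyc
  have h1 := cocyc_spec hlN γ x
  have h2 := cocyc_spec hlN δ (redMatrix l (γ : SL(2, ℤ)) • x)
  rw [Subgroup.coe_mul, Subgroup.coe_mul, map_mul, map_mul, ← mul_assoc, h1, mul_assoc, h2,
    redMatrix_mul, mul_smul, mul_assoc]

theorem cocyc_one [Fact l.Prime] (hlN : ¬ l ∣ N) (x : OnePoint (ZMod l)) :
    cocyc hlN (1 : Gamma0 N) x = 1 := by
  symm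
  apply eq_cocyc
  simp [redMatrix_one]

end Cocycle

section HeckeHom

variable {N l : ℕ} {A B : Type*} [AddCommGroup A] [AddCommGroup B]

/-- permutation of `P^1(F_l)` attached to `γ`. -/
def perm [Fact l.Prime] (γ : SL(2, ℤ)) : Equiv.Perm (OnePoint (ZMod l)) :=
  MulAction.toPerm (redMatrix l γ)

@[simp] theorem perm_apply [Fact l.Prime] (γ : SL(2, ℤ)) (x : OnePoint (ZMod l)) :
    perm γ x = redMatrix l γ • x := rfl

/-- The Hecke operator `T_l` on `Hom(Gamma0(N), A)`. -/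
def heckeHom' [Fact l.Prime] (hlN : ¬ l ∣ N) (A : Type*) [AddCommGroup A] :
    (Additive (Gamma0 N) →+ A) →+ (Additive (Gamma0 N) →+ A) where
  toFun φ :=
    { toFun := fun γ => ∑ x : OnePoint (ZMod l),
        φ (Additive.ofMul (cocyc hlN (Additive.toMul γ) x))
      map_zero' := by
        simp only [toMul_zero, cocyc_one, ofMul_one, map_zero, Finset.sum_const_zero]
      map_add' := fun γ δ => by
        simp only [toMul_add, cocyc_mul, ofMul_mul, map_add, Finset.sum_add_distrib]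
        congr 1
        exact Equiv.sum_comp (perm ((Additive.toMul γ : Gamma0 N) : SL(2, ℤ)))
          (fun x => φ (Additive.ofMul (cocyc hlN (Additive.toMul δ) x))) }
  map_zero' := by
    ext γ
    simp
  map_add' φ ψ := by
    ext γ
    simp [Finset.sum_add_distrib]

/-- The Hecke operator `T_l` on `Hom(Gamma0(N), A)`. -/
def heckeHom (hl : l.Prime) (hlN : ¬ l ∣ N) (A : Type*) [AddCommGroup A] :
    (Additive (Gamma0 N) →+ A) →+ (Additive (Gamma0 N) →+ A) :=
  haveI : Fact l.Prime := ⟨hl⟩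
  heckeHom' hlN A

theorem heckeHom_apply [Fact l.Prime] (hl : l.Prime) (hlN : ¬ l ∣ N)
    (φ : Additive (Gamma0 N) →+ A) (γ : Gamma0 N) :
    heckeHom hl hlN A φ (Additive.ofMul γ) =
      ∑ x : OnePoint (ZMod l), φ (Additive.ofMul (cocyc hlN γ x)) := rfl

/-- naturality in the coefficients -/
theorem heckeHom_comp (hl : l.Prime) (hlN : ¬ l ∣ N) (f : A →+ B)
    (φ : Additive (Gamma0 N) →+ A) :
    heckeHom hl hlN B (f.comp φ) = f.comp (heckeHom hl hlN A φ) := by
  haveI : Fact l.Prime := ⟨hl⟩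
  refine AddMonoidHom.ext fun γ => ?_
  change heckeHom hl hlN B (f.comp φ) (Additive.ofMul (Additive.toMul γ)) =
    f (heckeHom hl hlN A φ (Additive.ofMul (Additive.toMul γ)))
  rw [heckeHom_apply, heckeHom_apply, map_sum]
  rfl

theorem heckeHom_smul {R : Type*} [Semiring R] [Module R A] (hl : l.Prime) (hlN : ¬ l ∣ N)
    (c : R) (φ : Additive (Gamma0 N) →+ A) :
    heckeHom hl hlN A (c • φ) = c • heckeHom hl hlN A φ := by
  haveI : Fact l.Prime := ⟨hl⟩
  refine AddMonoidHom.ext fun γ => ?_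
  change heckeHom hl hlN A (c • φ) (Additive.ofMul (Additive.toMul γ)) =
    c • (heckeHom hl hlN A φ (Additive.ofMul (Additive.toMul γ)))
  rw [heckeHom_apply, heckeHom_apply, Finset.smul_sum]
  rfl

/-- The Hecke operator as a linear map. -/
def heckeHomLin (R : Type*) [Semiring R] (hl : l.Prime) (hlN : ¬ l ∣ N)
    (A : Type*) [AddCommGroup A] [Module R A] :
    (Additive (Gamma0 N) →+ A) →ₗ[R] (Additive (Gamma0 N) →+ A) where
  toFun := heckeHom hl hlN A
  map_add' := map_add _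
  map_smul' c φ := heckeHom_smul hl hlN c φ

@[simp] theorem heckeHomLin_apply (R : Type*) [Semiring R] [Module R A] (hl : l.Prime)
    (hlN : ¬ l ∣ N) (φ : Additive (Gamma0 N) →+ A) :
    heckeHomLin R hl hlN A φ = heckeHom hl hlN A φ := rfl

end HeckeHom

end Fermat.Agent.HeckeHom

end
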