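import Fermat.Agent.HeckeHom.Period

/-!
`T_l` on `Hom(Gamma0(N), A)` commutes with the involution `charInvolution` and preserves
parabolic homomorphisms.
-/

set_option autoImplicit false

noncomputable section

namespace Fermat.Agent.HeckeHom

open Matrix.SpecialLinearGroup UpperHalfPlane CongruenceSubgroup
open P2MW.S_ModularForm_heckeT_slash_eq_self_of_mem_Gamma0.ModularForm.HeckeSlashInvariance
open ModularForm ModularCurve.Period
open scoped MatrixGroups

variable {N l : ℕ}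

section Involution

/-- `diag(1,-1)` over a ring. -/
def eps (R : Type*) [CommRing R] : GL (Fin 2) R :=
  Matrix.GeneralLinearGroup.mk' !![(1 : R), 0; 0, -1]
    ((Matrix.isUnit_iff_isUnit_det _).mp (by
      rw [Matrix.isUnit_iff_isUnit_det, Matrix.det_fin_two_of]
      simp) |>.invertible)

@[simp] theorem coe_eps (R : Type*) [CommRing R] :
    ((eps R : GL (Fin 2) R) : Matrix (Fin 2) (Fin 2) R) = !![(1 : R), 0; 0, -1] := rfl

theorem eps_mul_eps (R : Type*) [CommRing R] : eps R * eps R = 1 := by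
  ext i j
  fin_cases i <;> fin_cases j <;> simp [Matrix.mul_apply, Fin.sum_univ_two]

theorem eps_conj_mapGL (g : SL(2, ℤ)) :
    eps ℝ * mapGL ℝ g * eps ℝ = mapGL ℝ (jConjSL g) := by
  ext i j
  fin_cases i <;> fin_cases j <;>
    simp [Matrix.mul_apply, Fin.sum_univ_two, jConjSL_coe, Matrix.vecMul, dotProduct]

theorem redMatrix_jConjSL [Fact l.Prime] (g : SL(2, ℤ)) :
    redMatrix l (jConjSL g) = eps (ZMod l) * redMatrix l g * eps (ZMod l) := by
  ext i j
  fin_cases i <;> fin_cases j <;>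
    simp [redMatrix, Matrix.mul_apply, Fin.sum_univ_two, jConjSL_coe]

theorem redMatrix_jConjSL_smul [Fact l.Prime] (g : SL(2, ℤ)) (x : OnePoint (ZMod l)) :
    redMatrix l (jConjSL g) • (eps (ZMod l) • x) = eps (ZMod l) • (redMatrix l g • x) := by
  rw [redMatrix_jConjSL, ← mul_smul, ← mul_smul, mul_assoc, eps_mul_eps, mul_one]

theorem exists_trans [hp : Fact l.Prime] (x : OnePoint (ZMod l)) :
    ∃ t : Gamma0 N, eps ℝ * heckeRep l x * eps ℝ =
      mapGL ℝ (t : SL(2, ℤ)) * heckeRep l (eps (ZMod l) • x) := by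
  have hl0 : l ≠ 0 := hp.out.ne_zero
  induction x using OnePoint.rec with
  | infty =>
    refine ⟨1, ?_⟩
    have h : eps (ZMod l) • (OnePoint.infty : OnePoint (ZMod l)) = OnePoint.infty := by
      rw [OnePoint.smul_infty_eq_ite]
      simp
    rw [h, heckeRep_infty]
    ext i j
    fin_cases i <;> fin_cases j <;>
      simp [Matrix.mul_apply, Fin.sum_univ_two, hl0]
  | coe j =>
    have h : eps (ZMod l) • (j : OnePoint (ZMod l)) = ((-j : ZMod l) : OnePoint (ZMod l)) := by
      rw [OnePoint.smul_some_eq_ite]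
      simp [div_neg]
    obtain ⟨m, hm⟩ : (l : ℤ) ∣ (((-j : ZMod l).val : ℤ) + (j.val : ℤ)) := by
      rw [← ZMod.intCast_zmod_eq_zero_iff_dvd]
      push_cast
      rw [ZMod.natCast_zmod_val, ZMod.natCast_zmod_val]
      ring
    refine ⟨⟨⟨!![1, -m; 0, 1], by simp⟩, ?_⟩, ?_⟩
    · rw [Gamma0_mem]
      simp
    · rw [h, heckeRep_coe, heckeRep_coe]
      have hm' : (((-j : ZMod l).val : ℝ)) = l * m - (j.val : ℝ) := by
        have := congrArg (Int.cast : ℤ → ℝ) hm
        push_cast at this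
        linear_combination this
      ext i k
      fin_cases i <;> fin_cases k <;>
        simp [Matrix.mul_apply, Fin.sum_univ_two, hl0, hm']
      ring

/-- `T_l` commutes with the involution. -/
theorem heckeHom_charInvolution (R : Type*) [Semiring R] {A : Type*} [AddCommGroup A]
    [Module R A] (hl : l.Prime) (hlN : ¬ l ∣ N) (ψ : Additive (Gamma0 N) →+ A) :
    heckeHom hl hlN A (charInvolution N R A ψ) = charInvolution N R A (heckeHom hl hlN A ψ) := by
  have : Fact l.Prime := ⟨hl⟩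
  choose t ht using fun x : OnePoint (ZMod l) => exists_trans (N := N) x
  refine AddMonoidHom.ext fun γ' => ?_
  change heckeHom hl hlN A (charInvolution N R A ψ) (Additive.ofMul (Additive.toMul γ')) =
    heckeHom hl hlN A ψ (Additive.ofMul (jConjGamma0 N (Additive.toMul γ')))
  generalize (Additive.toMul γ' : Gamma0 N) = γ
  rw [heckeHom_apply, heckeHom_apply]
  have key : ∀ x : OnePoint (ZMod l),
      t x * cocyc hlN (jConjGamma0 N γ) (eps (ZMod l) • x) =
        jConjGamma0 N (cocyc hlN γ x) * t (redMatrix l (γ : SL(2, ℤ)) • x) := by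
    intro x
    apply Subtype.ext
    apply mapGL_inj
    have h1 := cocyc_spec hlN γ x
    have h2 := cocyc_spec hlN (jConjGamma0 N γ) (eps (ZMod l) • x)
    rw [jConjGamma0_coe, redMatrix_jConjSL_smul, ← eps_conj_mapGL] at h2
    have h3 := ht x
    have h4 := ht (redMatrix l (γ : SL(2, ℤ)) • x)
    set a := heckeRep l x
    set b := heckeRep l (redMatrix l (γ : SL(2, ℤ)) • x)
    set a' := heckeRep l (eps (ZMod l) • x)
    set b' := heckeRep l (eps (ZMod l) • redMatrix l (γ : SL(2, ℤ)) • x)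
    have ee := eps_mul_eps ℝ
    apply mul_right_cancel (b := b')
    rw [Subgroup.coe_mul, Subgroup.coe_mul, map_mul, map_mul,
      mul_assoc (mapGL ℝ (t x : SL(2, ℤ))), ← h2,
      mul_assoc (mapGL ℝ (jConjGamma0 N (cocyc hlN γ x) : SL(2, ℤ))), ← h4,
      jConjGamma0_coe, ← eps_conj_mapGL, ← mul_assoc (mapGL ℝ (t x : SL(2, ℤ))), ← h3]
    calc eps ℝ * a * eps ℝ * (eps ℝ * mapGL ℝ (γ : SL(2, ℤ)) * eps ℝ)
        = eps ℝ * a * (eps ℝ * eps ℝ) * mapGL ℝ (γ : SL(2, ℤ)) * eps ℝ := by group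
      _ = eps ℝ * (a * mapGL ℝ (γ : SL(2, ℤ))) * eps ℝ := by rw [ee]; group
      _ = eps ℝ * (mapGL ℝ (cocyc hlN γ x : SL(2, ℤ)) * b) * eps ℝ := by rw [h1]
      _ = eps ℝ * mapGL ℝ (cocyc hlN γ x : SL(2, ℤ)) * (eps ℝ * eps ℝ) * b * eps ℝ := by
          rw [ee]; group
      _ = _ := by group
  have key2 : ∀ x : OnePoint (ZMod l),
      ψ (Additive.ofMul (jConjGamma0 N (cocyc hlN γ x))) =
        ψ (Additive.ofMul (cocyc hlN (jConjGamma0 N γ) (eps (ZMod l) • x))) +
        (ψ (Additive.ofMul (t x)) - ψ (Additive.ofMul (t (redMatrix l (γ : SL(2, ℤ)) • x)))) := by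
    intro x
    have := congrArg (fun g => ψ (Additive.ofMul g)) (key x)
    simp only [ofMul_mul, map_add] at this
    rw [← add_sub_assoc, add_comm (ψ (Additive.ofMul (cocyc _ _ _))), this, add_sub_cancel_right]
  have h5 : ∀ x : OnePoint (ZMod l), charInvolution N R A ψ (Additive.ofMul (cocyc hlN γ x)) =
      ψ (Additive.ofMul (jConjGamma0 N (cocyc hlN γ x))) := fun x => rfl
  rw [Finset.sum_congr rfl fun x _ => (h5 x).trans (key2 x), Finset.sum_add_distrib,
    Finset.sum_sub_distrib]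
  have h6 : ∑ x : OnePoint (ZMod l), ψ (Additive.ofMul (t (redMatrix l (γ : SL(2, ℤ)) • x))) =
      ∑ x, ψ (Additive.ofMul (t x)) :=
    Equiv.sum_comp (perm (γ : SL(2, ℤ))) (fun x => ψ (Additive.ofMul (t x)))
  have h7 : ∑ x : OnePoint (ZMod l),
      ψ (Additive.ofMul (cocyc hlN (jConjGamma0 N γ) (eps (ZMod l) • x))) =
      ∑ x, ψ (Additive.ofMul (cocyc hlN (jConjGamma0 N γ) x)) :=
    Equiv.sum_comp (MulAction.toPerm (eps (ZMod l)))
      (fun x => ψ (Additive.ofMul (cocyc hlN (jConjGamma0 N γ) x)))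
  rw [h6, h7, sub_self, add_zero]

end Involution

section Parabolic

theorem sum_eq_zero_of_orbits {X A : Type*} [Fintype X] [AddCommGroup A] (π : Equiv.Perm X)
    (f : X → A) (h : ∀ x n, 0 < n → (π ^ n) x = x → ∑ i ∈ Finset.range n, f ((π ^ i) x) = 0) :
    ∑ x, f x = 0 := by
  classical
  suffices H : ∀ (n : ℕ) (s : Finset X), s.card = n → (∀ x ∈ s, π x ∈ s) → ∑ x ∈ s, f x = 0 by
    exact H _ Finset.univ rfl fun _ _ => Finset.mem_univ _
  intro n
  induction n using Nat.strong_induction_on with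
  | _ n ih =>
    intro s hs hinv
    rcases s.eq_empty_or_nonempty with rfl | ⟨x, hx⟩
    · simp
    set r := Function.minimalPeriod π x with hr
    have hrpos : 0 < r := by
      rw [hr]
      apply Function.minimalPeriod_pos_of_mem_periodicPts
      exact Function.Injective.mem_periodicPts π.injective x
    have hper : (π ^ r) x = x := by
      rw [Equiv.Perm.coe_pow]
      exact Function.iterate_minimalPeriod
    set O := (Finset.range r).image (fun i => (π ^ i) x) with hO
    have hmem : ∀ i, (π ^ i) x ∈ s := by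
      intro i
      induction i with
      | zero => simpa using hx
      | succ i ihi =>
        rw [pow_succ', Equiv.Perm.mul_apply]
        exact hinv _ ihi
    have hOs : O ⊆ s := by
      intro y hy
      obtain ⟨i, -, rfl⟩ := Finset.mem_image.mp hy
      exact hmem i
    have hinj : Set.InjOn (fun i => (π ^ i) x) (Finset.range r : Set ℕ) := by
      intro i hi j hj hij
      simp only [Equiv.Perm.coe_pow] at hij
      exact Function.iterate_injOn_Iio_minimalPeriod (by simpa using hi) (by simpa using hj) hij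
    have hOsum : ∑ y ∈ O, f y = 0 := by
      rw [hO, Finset.sum_image hinj]
      exact h x r hrpos hper
    rw [← Finset.sum_sdiff hOs, hOsum, add_zero]
    have hxO : x ∈ O := Finset.mem_image.mpr ⟨0, Finset.mem_range.mpr hrpos, by simp⟩
    refine ih (s \ O).card ?_ (s \ O) rfl ?_
    · rw [← hs]
      exact Finset.card_lt_card (Finset.sdiff_ssubset hOs ⟨x, hxO⟩)
    · intro y hy
      rw [Finset.mem_sdiff] at hy ⊢
      refine ⟨hinv y hy.1, fun hy' => hy.2 ?_⟩
      obtain ⟨i, hi, hiy⟩ := Finset.mem_image.mp hy'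
      rw [Finset.mem_image]
      rcases Nat.eq_zero_or_pos i with rfl | hipos
      · refine ⟨r - 1, Finset.mem_range.mpr (by omega), ?_⟩
        apply π.injective
        rw [← Equiv.Perm.mul_apply, ← pow_succ', Nat.sub_add_cancel hrpos, hper]
        simpa using hiy
      · refine ⟨i - 1, Finset.mem_range.mpr (by have := Finset.mem_range.mp hi; omega), ?_⟩
        apply π.injective
        rw [← Equiv.Perm.mul_apply, ← pow_succ', Nat.sub_add_cancel hipos]
        exact hiy

theorem redMatrix_pow_smul [Fact l.Prime] (γ : SL(2, ℤ)) (n : ℕ) (x : OnePoint (ZMod l)) :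
    redMatrix l (γ ^ n) • x = (perm γ ^ n) x := by
  induction n with
  | zero => simp [redMatrix_one]
  | succ n ih =>
    rw [pow_succ, redMatrix_mul, mul_smul, ih, pow_succ', Equiv.Perm.mul_apply, perm_apply]

theorem ofMul_cocyc_pow [Fact l.Prime] {A : Type*} [AddCommGroup A] (hlN : ¬ l ∣ N)
    (φ : Additive (Gamma0 N) →+ A) (γ : Gamma0 N) (n : ℕ) (x : OnePoint (ZMod l)) :
    φ (Additive.ofMul (cocyc hlN (γ ^ n) x)) =
      ∑ i ∈ Finset.range n, φ (Additive.ofMul (cocyc hlN γ ((perm (γ : SL(2, ℤ)) ^ i) x))) := by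
  induction n with
  | zero => simp [cocyc_one]
  | succ n ih =>
    rw [Finset.sum_range_succ, ← ih, pow_succ, cocyc_mul, ofMul_mul, map_add, Subgroup.coe_pow,
      redMatrix_pow_smul]

theorem trace_pow_sq (g : SL(2, ℤ)) (h : (g : Matrix (Fin 2) (Fin 2) ℤ).trace ^ 2 = 4) (n : ℕ) :
    ((g ^ n : SL(2, ℤ)) : Matrix (Fin 2) (Fin 2) ℤ).trace ^ 2 = 4 := by
  obtain ⟨e, he, ht⟩ : ∃ e : ℤ, e ^ 2 = 1 ∧ (g : Matrix (Fin 2) (Fin 2) ℤ).trace = 2 * e := by
    have h1 : ((g : Matrix (Fin 2) (Fin 2) ℤ).trace - 2) *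
        ((g : Matrix (Fin 2) (Fin 2) ℤ).trace + 2) = 0 := by linear_combination h
    rcases mul_eq_zero.mp h1 with h2 | h2
    · exact ⟨1, by norm_num, by linear_combination h2⟩
    · exact ⟨-1, by norm_num, by linear_combination h2⟩
  have key : ∀ n : ℕ, ((g ^ n : SL(2, ℤ)) : Matrix (Fin 2) (Fin 2) ℤ).trace = 2 * e ^ n ∧
      ((g ^ (n + 1) : SL(2, ℤ)) : Matrix (Fin 2) (Fin 2) ℤ).trace = 2 * e ^ (n + 1) := by
    intro n
    induction n with
    | zero => simp [ht, Matrix.trace_fin_two]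
    | succ n ih =>
      refine ⟨ih.2, ?_⟩
      have hrec : ((g ^ (n + 1 + 1) : SL(2, ℤ)) : Matrix (Fin 2) (Fin 2) ℤ).trace =
          (g : Matrix (Fin 2) (Fin 2) ℤ).trace *
            ((g ^ (n + 1) : SL(2, ℤ)) : Matrix (Fin 2) (Fin 2) ℤ).trace -
            ((g ^ n : SL(2, ℤ)) : Matrix (Fin 2) (Fin 2) ℤ).trace := by
        have hd := det_eq g
        rw [pow_succ (g) (n + 1), pow_succ g n]
        set M := g ^ n
        simp only [Matrix.SpecialLinearGroup.coe_mul, Matrix.trace_fin_two, Matrix.mul_apply,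
          Fin.sum_univ_two]
        linear_combination (-((M 0 0 : ℤ)) - (M 1 1 : ℤ)) * hd
      rw [hrec, ih.1, ih.2, ht]
      have : e ^ (n + 1 + 1) = e ^ n := by rw [add_assoc, pow_add, he, mul_one]
      have h3 : e * e ^ (n + 1) = e ^ n := by rw [← this]; ring
      rw [this]
      linear_combination 4 * h3
  rw [(key n).1, mul_pow, ← pow_mul, mul_comm n, pow_mul, he, one_pow]
  norm_num

theorem trace_cocyc_of_fixed [hp : Fact l.Prime] (hlN : ¬ l ∣ N) (γ : Gamma0 N)
    (x : OnePoint (ZMod l)) (hx : redMatrix l (γ : SL(2, ℤ)) • x = x) :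
    ((cocyc hlN γ x : SL(2, ℤ)) : Matrix (Fin 2) (Fin 2) ℤ).trace =
      ((γ : SL(2, ℤ)) : Matrix (Fin 2) (Fin 2) ℤ).trace := by
  have h := cocyc_spec hlN γ x
  rw [hx] at h
  have h2 : mapGL ℝ (cocyc hlN γ x : SL(2, ℤ)) =
      heckeRep l x * mapGL ℝ (γ : SL(2, ℤ)) * (heckeRep l x)⁻¹ := by
    rw [h, mul_inv_cancel_right]
  have h3 : ((mapGL ℝ (cocyc hlN γ x : SL(2, ℤ)) : GL (Fin 2) ℝ) :
      Matrix (Fin 2) (Fin 2) ℝ).trace =
      ((mapGL ℝ (γ : SL(2, ℤ)) : GL (Fin 2) ℝ) : Matrix (Fin 2) (Fin 2) ℝ).trace := by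
    rw [h2, Units.val_mul, Units.val_mul, Matrix.trace_mul_comm, ← mul_assoc, ← Units.val_mul,
      inv_mul_cancel, Units.val_one, one_mul]
  have h4 : ∀ g : SL(2, ℤ), ((mapGL ℝ g : GL (Fin 2) ℝ) : Matrix (Fin 2) (Fin 2) ℝ).trace =
      (((g : Matrix (Fin 2) (Fin 2) ℤ).trace : ℤ) : ℝ) := by
    intro g
    simp [Matrix.trace_fin_two]
  rw [h4, h4] at h3
  exact_mod_cast h3

/-- `T_l` preserves parabolic homomorphisms. -/
theorem isParabolicHom_heckeHom {A : Type*} [AddCommGroup A] (hl : l.Prime) (hlN : ¬ l ∣ N)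
    {φ : Additive (Gamma0 N) →+ A} (hφ : IsParabolicHom (Gamma0 N) φ) :
    IsParabolicHom (Gamma0 N) (heckeHom hl hlN A φ) := by
  have : Fact l.Prime := ⟨hl⟩
  intro γ hγ
  rw [heckeHom_apply]
  refine sum_eq_zero_of_orbits (perm (γ : SL(2, ℤ))) _ fun x n _ hfix => ?_
  rw [← ofMul_cocyc_pow hlN φ γ n x]
  apply hφ
  rw [trace_cocyc_of_fixed hlN (γ ^ n) x
    (by rw [Subgroup.coe_pow, redMatrix_pow_smul]; exact hfix), Subgroup.coe_pow]
  exact trace_pow_sq _ hγ n

theorem heckeHom_mem_parabolicHoms {R : Type*} [Semiring R] {A : Type*} [AddCommGroup A]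
    [Module R A] (hl : l.Prime) (hlN : ¬ l ∣ N) {φ : Additive (Gamma0 N) →+ A}
    (hφ : φ ∈ parabolicHoms R (Gamma0 N) A) :
    heckeHom hl hlN A φ ∈ parabolicHoms R (Gamma0 N) A :=
  isParabolicHom_heckeHom hl hlN hφ

end Parabolic

end Fermat.Agent.HeckeHom

end
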