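import Fermat.Agent.HeckeHom.Char

/-!
General Hecke operators `Hom(Γ, A) → Hom(Γ', A)` for subgroups `Γ, Γ'` of `SL(2, ℤ)`, attached to a
finite family of matrices `α_x` such that `Γ α_x` is permuted by right multiplication by `Γ'`.
-/

set_option autoImplicit false

noncomputable section

namespace Fermat.Agent.HeckeHom

open Matrix.SpecialLinearGroup UpperHalfPlane CongruenceSubgroup
open ModularCurve.Period
open scoped MatrixGroups

/-- Data for a Hecke operator `Hom(Γ, A) → Hom(Γ', A)`. -/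
structure HData (Γ Γ' : Subgroup SL(2, ℤ)) where
  /-- index set of the cosets -/
  X : Type
  /-- it is finite -/
  [fin : Fintype X]
  /-- the representatives -/
  α : X → GL (Fin 2) ℝ
  /-- existence of the action -/
  ex : ∀ (γ : Γ') (x : X), ∃ (y : X) (δ : Γ), α x * mapGL ℝ (γ : SL(2, ℤ)) =
    mapGL ℝ (δ : SL(2, ℤ)) * α y
  /-- the cosets are distinct -/
  uniq : ∀ (δ : Γ) (x y : X), α x = mapGL ℝ (δ : SL(2, ℤ)) * α y → x = y

attribute [instance] HData.fin

namespace HData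

variable {Γ Γ' : Subgroup SL(2, ℤ)} (D : HData Γ Γ')

/-- the action of `Γ'` on the cosets -/
def actFun (γ : Γ') (x : D.X) : D.X := (D.ex γ x).choose

/-- the cocycle -/
def coc (γ : Γ') (x : D.X) : Γ := (D.ex γ x).choose_spec.choose

theorem spec (γ : Γ') (x : D.X) : D.α x * mapGL ℝ (γ : SL(2, ℤ)) =
    mapGL ℝ (D.coc γ x : SL(2, ℤ)) * D.α (D.actFun γ x) :=
  (D.ex γ x).choose_spec.choose_spec

theorem eq_of_spec {γ : Γ'} {x y : D.X} {δ : Γ}
    (h : D.α x * mapGL ℝ (γ : SL(2, ℤ)) = mapGL ℝ (δ : SL(2, ℤ)) * D.α y) :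
    y = D.actFun γ x ∧ δ = D.coc γ x := by
  have h2 := h.symm.trans (D.spec γ x)
  have h3 : D.α y = mapGL ℝ ((δ⁻¹ * D.coc γ x : Γ) : SL(2, ℤ)) * D.α (D.actFun γ x) := by
    rw [Subgroup.coe_mul, map_mul, Subgroup.coe_inv, map_inv, mul_assoc, ← h2,
      inv_mul_cancel_left]
  have h4 := D.uniq _ _ _ h3
  refine ⟨h4, ?_⟩
  rw [← h4] at h2
  exact Subtype.ext (mapGL_inj (mul_right_cancel h2))

theorem mul_aux (γ δ : Γ') (x : D.X) :
    D.actFun δ (D.actFun γ x) = D.actFun (γ * δ) x ∧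
      D.coc γ x * D.coc δ (D.actFun γ x) = D.coc (γ * δ) x := by
  apply D.eq_of_spec
  rw [Subgroup.coe_mul, map_mul, ← mul_assoc, D.spec γ x, mul_assoc, D.spec δ, Subgroup.coe_mul,
    map_mul, mul_assoc]

theorem one_aux (x : D.X) : x = D.actFun 1 x ∧ (1 : Γ) = D.coc 1 x := by
  apply D.eq_of_spec
  simp

theorem actFun_mul (γ δ : Γ') (x : D.X) :
    D.actFun (γ * δ) x = D.actFun δ (D.actFun γ x) := (D.mul_aux γ δ x).1.symm

theorem coc_mul (γ δ : Γ') (x : D.X) :
    D.coc (γ * δ) x = D.coc γ x * D.coc δ (D.actFun γ x) := (D.mul_aux γ δ x).2.symm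

theorem actFun_one (x : D.X) : D.actFun 1 x = x := (D.one_aux x).1.symm

theorem coc_one (x : D.X) : D.coc 1 x = 1 := (D.one_aux x).2.symm

/-- the permutation of the cosets -/
def perm (γ : Γ') : Equiv.Perm D.X where
  toFun := D.actFun γ
  invFun := D.actFun γ⁻¹
  left_inv x := by rw [← actFun_mul, mul_inv_cancel, actFun_one]
  right_inv x := by rw [← actFun_mul, inv_mul_cancel, actFun_one]

@[simp] theorem perm_apply (γ : Γ') (x : D.X) : D.perm γ x = D.actFun γ x := rfl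

variable (A : Type*) [AddCommGroup A] {B : Type*} [AddCommGroup B]

/-- The Hecke operator `Hom(Γ, A) → Hom(Γ', A)`. -/
def hom : (Additive Γ →+ A) →+ (Additive Γ' →+ A) where
  toFun φ :=
    { toFun := fun γ => ∑ x : D.X, φ (Additive.ofMul (D.coc (Additive.toMul γ) x))
      map_zero' := by
        simp only [toMul_zero, coc_one, ofMul_one, map_zero, Finset.sum_const_zero]
      map_add' := fun γ δ => by
        simp only [toMul_add, coc_mul, ofMul_mul, map_add, Finset.sum_add_distrib]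
        congr 1
        exact Equiv.sum_comp (D.perm (Additive.toMul γ))
          (fun x => φ (Additive.ofMul (D.coc (Additive.toMul δ) x))) }
  map_zero' := by
    ext γ
    simp
  map_add' φ ψ := by
    ext γ
    simp [Finset.sum_add_distrib]

variable {A}

theorem hom_apply (φ : Additive Γ →+ A) (γ : Γ') :
    D.hom A φ (Additive.ofMul γ) = ∑ x : D.X, φ (Additive.ofMul (D.coc γ x)) := rfl

theorem hom_comp (f : A →+ B) (φ : Additive Γ →+ A) :
    D.hom B (f.comp φ) = f.comp (D.hom A φ) := by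
  refine AddMonoidHom.ext fun γ => ?_
  change D.hom B (f.comp φ) (Additive.ofMul (Additive.toMul γ)) =
    f (D.hom A φ (Additive.ofMul (Additive.toMul γ)))
  rw [hom_apply, hom_apply, map_sum]
  rfl

theorem hom_smul {R : Type*} [Semiring R] [Module R A] (c : R) (φ : Additive Γ →+ A) :
    D.hom A (c • φ) = c • D.hom A φ := by
  refine AddMonoidHom.ext fun γ => ?_
  change D.hom A (c • φ) (Additive.ofMul (Additive.toMul γ)) =
    c • (D.hom A φ (Additive.ofMul (Additive.toMul γ)))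
  rw [hom_apply, hom_apply, Finset.smul_sum]
  rfl

variable (A) in
/-- The Hecke operator as a linear map. -/
def homLin (R : Type*) [Semiring R] [Module R A] :
    (Additive Γ →+ A) →ₗ[R] (Additive Γ' →+ A) where
  toFun := D.hom A
  map_add' := map_add _
  map_smul' c φ := D.hom_smul c φ

@[simp] theorem homLin_apply (R : Type*) [Semiring R] [Module R A] (φ : Additive Γ →+ A) :
    D.homLin A R φ = D.hom A φ := rfl

/-! ### parabolic homomorphisms -/

theorem coc_pow (φ : Additive Γ →+ A) (γ : Γ') (n : ℕ) (x : D.X) :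
    (D.perm γ ^ n) x = D.actFun (γ ^ n) x ∧
    φ (Additive.ofMul (D.coc (γ ^ n) x)) =
      ∑ i ∈ Finset.range n, φ (Additive.ofMul (D.coc γ ((D.perm γ ^ i) x))) := by
  induction n with
  | zero => simp [coc_one, actFun_one]
  | succ n ih =>
    refine ⟨?_, ?_⟩
    · rw [pow_succ', Equiv.Perm.mul_apply, ih.1, perm_apply, ← actFun_mul, pow_succ]
    · rw [Finset.sum_range_succ, ← ih.2, pow_succ, coc_mul, ofMul_mul, map_add, ih.1]

theorem trace_mapGL (g : SL(2, ℤ)) :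
    ((mapGL ℝ g : GL (Fin 2) ℝ) : Matrix (Fin 2) (Fin 2) ℝ).trace =
      (((g : Matrix (Fin 2) (Fin 2) ℤ).trace : ℤ) : ℝ) := by
  simp [Matrix.trace_fin_two]

theorem trace_coc_of_fixed (γ : Γ') (x : D.X) (hx : D.actFun γ x = x) :
    ((D.coc γ x : SL(2, ℤ)) : Matrix (Fin 2) (Fin 2) ℤ).trace =
      ((γ : SL(2, ℤ)) : Matrix (Fin 2) (Fin 2) ℤ).trace := by
  have h := D.spec γ x
  rw [hx] at h
  have h2 : mapGL ℝ (D.coc γ x : SL(2, ℤ)) =
      D.α x * mapGL ℝ (γ : SL(2, ℤ)) * (D.α x)⁻¹ := by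
    rw [h, mul_inv_cancel_right]
  have h3 : ((mapGL ℝ (D.coc γ x : SL(2, ℤ)) : GL (Fin 2) ℝ) :
      Matrix (Fin 2) (Fin 2) ℝ).trace =
      ((mapGL ℝ (γ : SL(2, ℤ)) : GL (Fin 2) ℝ) : Matrix (Fin 2) (Fin 2) ℝ).trace := by
    rw [h2, Units.val_mul, Units.val_mul, Matrix.trace_mul_comm, ← mul_assoc, ← Units.val_mul,
      inv_mul_cancel, Units.val_one, one_mul]
  rw [trace_mapGL, trace_mapGL] at h3
  exact_mod_cast h3

theorem isParabolicHom_hom {φ : Additive Γ →+ A} (hφ : IsParabolicHom Γ φ) :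
    IsParabolicHom Γ' (D.hom A φ) := by
  intro γ hγ
  rw [hom_apply]
  refine sum_eq_zero_of_orbits (D.perm γ) _ fun x n _ hfix => ?_
  rw [← (D.coc_pow φ γ n x).2]
  apply hφ
  rw [D.trace_coc_of_fixed (γ ^ n) x ((D.coc_pow φ γ n x).1.symm.trans hfix), Subgroup.coe_pow]
  exact trace_pow_sq _ hγ n

theorem hom_mem_parabolicHoms {R : Type*} [Semiring R] [Module R A] {φ : Additive Γ →+ A}
    (hφ : φ ∈ parabolicHoms R Γ A) : D.hom A φ ∈ parabolicHoms R Γ' A :=
  D.isParabolicHom_hom hφ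

variable (A) in
/-- The Hecke operator on parabolic homomorphisms. -/
def par (R : Type*) [CommRing R] [Module R A] :
    parabolicHoms R Γ A →ₗ[R] parabolicHoms R Γ' A :=
  (D.homLin A R).restrict fun _ hψ => D.hom_mem_parabolicHoms hψ

@[simp] theorem coe_par (R : Type*) [CommRing R] [Module R A] (ψ : parabolicHoms R Γ A) :
    (D.par A R ψ : Additive Γ' →+ A) = D.hom A ψ := rfl

/-! ### action on functions on the upper half plane -/

theorem smul_smul' (γ : Γ') (x : D.X) (τ : ℍ) :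
    D.α x • ((γ : SL(2, ℤ)) • τ) = (D.coc γ x : SL(2, ℤ)) • (D.α (D.actFun γ x) • τ) := by
  have h := D.spec γ x
  have h2 : D.α x • ((mapGL ℝ (γ : SL(2, ℤ)) : GL (Fin 2) ℝ) • τ) =
      (mapGL ℝ (D.coc γ x : SL(2, ℤ)) : GL (Fin 2) ℝ) • (D.α (D.actFun γ x) • τ) := by
    rw [← mul_smul, ← mul_smul, h]
  exact h2

/-- `∑_x F(α_x τ)` -/
def sumFun (F : ℍ → ℂ) (τ : ℍ) : ℂ := ∑ x : D.X, F (D.α x • τ)

theorem sumFun_equivariant {F : ℍ → ℂ} (hF : IsEquivariantPrimitive Γ F) (γ : Γ') (τ : ℍ) :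
    D.sumFun F ((γ : SL(2, ℤ)) • τ) - D.sumFun F τ = ∑ x : D.X, hF.period (D.coc γ x) := by
  have h1 : D.sumFun F τ = ∑ x : D.X, F (D.α (D.actFun γ x) • τ) :=
    (Equiv.sum_comp (D.perm γ) (fun x => F (D.α x • τ))).symm
  rw [h1, sumFun, ← Finset.sum_sub_distrib]
  refine Finset.sum_congr rfl fun x _ => ?_
  rw [D.smul_smul' γ x τ, hF.sub_eq_period]

theorem isEquivariantPrimitive_sumFun {F : ℍ → ℂ} (hF : IsEquivariantPrimitive Γ F) :
    IsEquivariantPrimitive Γ' (D.sumFun F) :=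
  fun γ => ⟨_, D.sumFun_equivariant hF γ⟩

theorem periodHom_sumFun {F : ℍ → ℂ} (hF : IsEquivariantPrimitive Γ F) :
    (D.isEquivariantPrimitive_sumFun hF).periodHom = D.hom ℂ hF.periodHom := by
  refine AddMonoidHom.ext fun γ => ?_
  change (D.isEquivariantPrimitive_sumFun hF).period (Additive.toMul γ) =
    D.hom ℂ hF.periodHom (Additive.ofMul (Additive.toMul γ))
  rw [hom_apply, IsEquivariantPrimitive.period, D.sumFun_equivariant hF]
  rfl

/-- `∏_x G(α_x τ)` -/
def prodFun {M : Type*} [CommMonoid M] (G : ℍ → M) (τ : ℍ) : M := ∏ x : D.X, G (D.α x • τ)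

theorem prodFun_smul {M : Type*} [CommMonoid M] {G : ℍ → M} {χ : Γ → M}
    (hG : ∀ (γ : Γ) (τ : ℍ), G ((γ : SL(2, ℤ)) • τ) = χ γ * G τ) (γ : Γ') (τ : ℍ) :
    D.prodFun G ((γ : SL(2, ℤ)) • τ) = (∏ x : D.X, χ (D.coc γ x)) * D.prodFun G τ := by
  have h1 : D.prodFun G τ = ∏ x : D.X, G (D.α (D.actFun γ x) • τ) :=
    (Equiv.prod_comp (D.perm γ) (fun x => G (D.α x • τ))).symm
  rw [h1, prodFun, ← Finset.prod_mul_distrib]
  refine Finset.prod_congr rfl fun x _ => ?_
  rw [D.smul_smul' γ x τ, hG]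

end HData

end Fermat.Agent.HeckeHom

end
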