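import Fermat.Agent.HeckeHom.Period

/-!
Multiplicative Hecke operator: if `G(γ τ) = χ(γ) (c τ + d)^k G(τ)` then
`(T_l G)(τ) = G(l τ) ∏_{b<l} G((τ+b)/l)` has weight `k (l+1)` and character `T_l χ`.
-/

set_option autoImplicit false

noncomputable section

namespace Fermat.Agent.HeckeHom

open Matrix.SpecialLinearGroup UpperHalfPlane CongruenceSubgroup
open P2MW.S_ModularForm_heckeT_slash_eq_self_of_mem_Gamma0.ModularForm.HeckeSlashInvariance
open ModularForm ModularCurve.Period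
open scoped MatrixGroups

variable {N l : ℕ}

/-- `∏_x G(α_x τ)`. -/
def heckeProd' [Fact l.Prime] {M : Type*} [CommMonoid M] (G : ℍ → M) (τ : ℍ) : M :=
  ∏ x : OnePoint (ZMod l), G (heckeRep l x • τ)

/-- The multiplicative Hecke operator `G ↦ G(l τ) ∏_{b<l} G((τ+b)/l)`. -/
def heckeProd (l : ℕ) {M : Type*} [CommMonoid M] (G : ℍ → M) (τ : ℍ) : M :=
  G (heckeDiagMatrix l • τ) * ∏ j ∈ Finset.range l, G (heckeMatrix l j • τ)

theorem heckeProd_eq [Fact l.Prime] {M : Type*} [CommMonoid M] (G : ℍ → M) (τ : ℍ) :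
    heckeProd l G τ = heckeProd' (l := l) G τ := by
  symm
  have h : ∏ j ∈ Finset.range l, G (heckeMatrix l j • τ) =
      ∏ x : ZMod l, G (heckeMatrix l x.val • τ) := by
    refine Finset.prod_nbij' (fun j : ℕ ↦ (j : ZMod l)) (fun x : ZMod l ↦ x.val)
      (fun _ _ ↦ Finset.mem_univ _) (fun x _ ↦ Finset.mem_range.mpr x.val_lt)
      (fun j hj ↦ ?_) (fun x _ ↦ ?_) (fun j hj ↦ ?_)
    · exact ZMod.val_cast_of_lt (Finset.mem_range.mp hj)
    · exact ZMod.natCast_zmod_val x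
    · rw [ZMod.val_cast_of_lt (Finset.mem_range.mp hj)]
  rw [heckeProd, heckeProd', h]
  exact Fintype.prod_option (fun x : OnePoint (ZMod l) => G (heckeRep l x • τ))

theorem coe_heckeDiag_smul (hl : l ≠ 0) (τ : ℍ) :
    ((heckeDiagMatrix l • τ : ℍ) : ℂ) = (l : ℂ) * τ := coe_heckeDiagMatrix_smul hl τ

/-- the denominators of `α_x`. -/
theorem denom_heckeRep [hp : Fact l.Prime] (x : OnePoint (ZMod l)) (τ τ' : ℍ) :
    denom (heckeRep l x) τ = denom (heckeRep l x) τ' ∧ denom (heckeRep l x) τ ≠ 0 := by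
  have hl0 : l ≠ 0 := hp.out.ne_zero
  induction x using OnePoint.rec with
  | infty =>
    rw [heckeRep_infty, denom_heckeDiagMatrix hl0, denom_heckeDiagMatrix hl0]
    exact ⟨rfl, one_ne_zero⟩
  | coe j =>
    rw [heckeRep_coe, denom_heckeMatrix hl0, denom_heckeMatrix hl0]
    exact ⟨rfl, by exact_mod_cast hl0⟩

theorem denom_coe (γ : SL(2, ℤ)) (τ : ℍ) :
    denom (mapGL ℝ γ : GL (Fin 2) ℝ) τ = (γ 1 0 : ℂ) * τ + γ 1 1 := by
  simp [denom]

theorem denom_heckeRep_cocycle [hp : Fact l.Prime] (hlN : ¬ l ∣ N) (γ : Gamma0 N)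
    (x : OnePoint (ZMod l)) (τ : ℍ) :
    denom (mapGL ℝ (cocyc hlN γ x : SL(2, ℤ)) : GL (Fin 2) ℝ)
        ((heckeRep l (redMatrix l (γ : SL(2, ℤ)) • x) • τ : ℍ) : ℂ) *
      denom (heckeRep l (redMatrix l (γ : SL(2, ℤ)) • x)) τ =
    denom (heckeRep l x) τ * denom (mapGL ℝ (γ : SL(2, ℤ)) : GL (Fin 2) ℝ) τ := by
  have h := cocyc_spec hlN γ x
  have hpos : ∀ y : OnePoint (ZMod l), 0 < ((heckeRep l y).det : ℝ) := by
    intro y
    induction y using OnePoint.rec with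
    | infty => exact det_heckeDiagMatrix_pos l
    | coe j => exact det_heckeMatrix_pos l _
  have hpos' : ∀ g : SL(2, ℤ), 0 < ((mapGL ℝ g : GL (Fin 2) ℝ).det : ℝ) := by
    intro g
    simp
  have key := congrArg (fun M : GL (Fin 2) ℝ => denom M τ) h
  have e1 := denom_cocycle (heckeRep l x) (mapGL ℝ (γ : SL(2, ℤ)) : GL (Fin 2) ℝ)
    (z := (τ : ℂ)) τ.im_ne_zero
  have e2 := denom_cocycle (mapGL ℝ (cocyc hlN γ x : SL(2, ℤ)) : GL (Fin 2) ℝ)
    (heckeRep l (redMatrix l (γ : SL(2, ℤ)) • x)) (z := (τ : ℂ)) τ.im_ne_zero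
  rw [e1, e2] at key
  have c1 : (num (heckeRep l (redMatrix l (γ : SL(2, ℤ)) • x)) τ /
      denom (heckeRep l (redMatrix l (γ : SL(2, ℤ)) • x)) τ : ℂ) =
      ((heckeRep l (redMatrix l (γ : SL(2, ℤ)) • x) • τ : ℍ) : ℂ) :=
    (coe_smul_of_det_pos (hpos _) τ).symm
  have c2 : (num (mapGL ℝ (γ : SL(2, ℤ)) : GL (Fin 2) ℝ) τ /
      denom (mapGL ℝ (γ : SL(2, ℤ)) : GL (Fin 2) ℝ) τ : ℂ) =
      (((mapGL ℝ (γ : SL(2, ℤ)) : GL (Fin 2) ℝ) • τ : ℍ) : ℂ) :=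
    (coe_smul_of_det_pos (hpos' _) τ).symm
  rw [c1, c2] at key
  rw [← key]
  congr 1
  exact (denom_heckeRep x _ _).1

/-- **Multiplicative Hecke operator and characters, weight `k` version.** -/
theorem heckeProd_smul (hl : l.Prime) (hlN : ¬ l ∣ N) (k : ℕ) {G : ℍ → ℂ}
    {χ : Gamma0 N →* ℂˣ}
    (hG : ∀ (γ : Gamma0 N) (τ : ℍ), G ((γ : SL(2, ℤ)) • τ) =
      (χ γ : ℂ) * denom (mapGL ℝ (γ : SL(2, ℤ)) : GL (Fin 2) ℝ) τ ^ k * G τ)
    (γ : Gamma0 N) (τ : ℍ) :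
    heckeProd l G ((γ : SL(2, ℤ)) • τ) =
      ((Additive.toMul (heckeHom hl hlN (Additive ℂˣ) (MonoidHom.toAdditive χ)
        (Additive.ofMul γ)) : ℂˣ) : ℂ) *
        denom (mapGL ℝ (γ : SL(2, ℤ)) : GL (Fin 2) ℝ) τ ^ (k * (l + 1)) * heckeProd l G τ := by
  have : Fact l.Prime := ⟨hl⟩
  rw [heckeProd_eq, heckeProd_eq, heckeHom_apply, toMul_sum, Units.coe_prod, heckeProd']
  set D : OnePoint (ZMod l) → ℂ := fun x => denom (heckeRep l x) τ with hD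
  set J : ℂ := denom (mapGL ℝ (γ : SL(2, ℤ)) : GL (Fin 2) ℝ) τ with hJ
  have hD0 : ∀ x, D x ≠ 0 := fun x => (denom_heckeRep x τ τ).2
  have h1 : ∀ x : OnePoint (ZMod l), G (heckeRep l x • ((γ : SL(2, ℤ)) • τ)) =
      (χ (cocyc hlN γ x) : ℂ) * ((D x * J / D (redMatrix l (γ : SL(2, ℤ)) • x)) ^ k) *
        G (heckeRep l (redMatrix l (γ : SL(2, ℤ)) • x) • τ) := by
    intro x
    rw [heckeRep_smul_smul hlN, hG]
    congr 3
    rw [eq_div_iff (hD0 _)]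
    exact denom_heckeRep_cocycle hlN γ x τ
  rw [Finset.prod_congr rfl fun x _ => h1 x, Finset.prod_mul_distrib, Finset.prod_mul_distrib]
  have h2 : ∏ x : OnePoint (ZMod l), G (heckeRep l (redMatrix l (γ : SL(2, ℤ)) • x) • τ) =
      heckeProd' (l := l) G τ :=
    Equiv.prod_comp (perm (γ : SL(2, ℤ))) (fun x => G (heckeRep l x • τ))
  have h3 : ∏ x : OnePoint (ZMod l), (D x * J / D (redMatrix l (γ : SL(2, ℤ)) • x)) ^ k =
      J ^ (k * (l + 1)) := by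
    rw [Finset.prod_pow, Finset.prod_div_distrib, Finset.prod_mul_distrib]
    have h4 : ∏ x : OnePoint (ZMod l), D (redMatrix l (γ : SL(2, ℤ)) • x) = ∏ x, D x :=
      Equiv.prod_comp (perm (γ : SL(2, ℤ))) D
    have h5 : Fintype.card (OnePoint (ZMod l)) = l + 1 := by
      have := Fintype.card_option (α := ZMod l)
      rw [ZMod.card] at this
      exact this
    rw [h4, Finset.prod_const, Finset.card_univ, h5,
      mul_div_cancel_left₀ _ (Finset.prod_ne_zero_iff.mpr fun x _ => hD0 x), ← pow_mul, mul_comm k]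
  rw [h2, h3]
  rfl

/-- weight zero version. -/
theorem heckeProd_smul_zero (hl : l.Prime) (hlN : ¬ l ∣ N) {G : ℍ → ℂ}
    {χ : Gamma0 N →* ℂˣ}
    (hG : ∀ (γ : Gamma0 N) (τ : ℍ), G ((γ : SL(2, ℤ)) • τ) = (χ γ : ℂ) * G τ)
    (γ : Gamma0 N) (τ : ℍ) :
    heckeProd l G ((γ : SL(2, ℤ)) • τ) =
      ((Additive.toMul (heckeHom hl hlN (Additive ℂˣ) (MonoidHom.toAdditive χ)
        (Additive.ofMul γ)) : ℂˣ) : ℂ) * heckeProd l G τ := by
  have := heckeProd_smul hl hlN 0 (G := G) (χ := χ) (fun γ τ => by rw [hG]; simp) γ τ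
  simpa using this

end Fermat.Agent.HeckeHom

end
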