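import Fermat.Agent.HeckeHom.Basic

/-!
Hecke operators and primitives: if `F` is an equivariant primitive of `f`, then
`∑_x F (α_x • τ)` is an equivariant primitive of `T_l f` with period homomorphism `T_l (period F)`.
-/

set_option autoImplicit false

noncomputable section

namespace Fermat.Agent.HeckeHom

open Matrix.SpecialLinearGroup UpperHalfPlane CongruenceSubgroup
open P2MW.S_ModularForm_heckeT_slash_eq_self_of_mem_Gamma0.ModularForm.HeckeSlashInvariance
open ModularForm ModularCurve.Period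
open scoped MatrixGroups

variable {N l : ℕ}

/-- `∑_x F(α_x τ)`. -/
def heckeSum [Fact l.Prime] (F : ℍ → ℂ) (τ : ℍ) : ℂ :=
  ∑ x : OnePoint (ZMod l), F (heckeRep l x • τ)

theorem heckeSum_eq [Fact l.Prime] (F : ℍ → ℂ) (τ : ℍ) :
    heckeSum (l := l) F τ = F (heckeDiagMatrix l • τ) +
      ∑ j ∈ Finset.range l, F (heckeMatrix l j • τ) := by
  rw [heckeSum, sum_range_eq_sum_zmod (p := l) (fun j => F (heckeMatrix l j • τ))]
  exact Fintype.sum_option (fun x : OnePoint (ZMod l) => F (heckeRep l x • τ))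

theorem heckeRep_smul_smul [Fact l.Prime] (hlN : ¬ l ∣ N) (γ : Gamma0 N)
    (x : OnePoint (ZMod l)) (τ : ℍ) :
    heckeRep l x • ((γ : SL(2, ℤ)) • τ) =
      (cocyc hlN γ x : SL(2, ℤ)) • (heckeRep l (redMatrix l (γ : SL(2, ℤ)) • x) • τ) := by
  have h := cocyc_spec hlN γ x
  have h2 : heckeRep l x • ((mapGL ℝ (γ : SL(2, ℤ)) : GL (Fin 2) ℝ) • τ) =
      (mapGL ℝ (cocyc hlN γ x : SL(2, ℤ)) : GL (Fin 2) ℝ) •
        (heckeRep l (redMatrix l (γ : SL(2, ℤ)) • x) • τ) := by
    rw [← mul_smul, ← mul_smul, h]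
  exact h2

theorem heckeSum_equivariant [Fact l.Prime] (hlN : ¬ l ∣ N) {F : ℍ → ℂ}
    (hF : IsEquivariantPrimitive (Gamma0 N) F) (γ : Gamma0 N) (τ : ℍ) :
    heckeSum (l := l) F ((γ : SL(2, ℤ)) • τ) - heckeSum (l := l) F τ =
      ∑ x : OnePoint (ZMod l), hF.period (cocyc hlN γ x) := by
  have h1 : heckeSum (l := l) F τ =
      ∑ x : OnePoint (ZMod l), F (heckeRep l (redMatrix l (γ : SL(2, ℤ)) • x) • τ) :=
    (Equiv.sum_comp (perm (γ : SL(2, ℤ))) (fun x => F (heckeRep l x • τ))).symm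
  rw [h1, heckeSum, ← Finset.sum_sub_distrib]
  refine Finset.sum_congr rfl fun x _ => ?_
  rw [heckeRep_smul_smul hlN γ x τ, hF.sub_eq_period]

theorem isEquivariantPrimitive_heckeSum [Fact l.Prime] (hlN : ¬ l ∣ N) {F : ℍ → ℂ}
    (hF : IsEquivariantPrimitive (Gamma0 N) F) :
    IsEquivariantPrimitive (Gamma0 N) (heckeSum (l := l) F) :=
  fun γ => ⟨_, heckeSum_equivariant hlN hF γ⟩

theorem periodHom_heckeSum [Fact l.Prime] (hlN : ¬ l ∣ N) {F : ℍ → ℂ}
    (hF : IsEquivariantPrimitive (Gamma0 N) F) :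
    (isEquivariantPrimitive_heckeSum hlN hF).periodHom =
      heckeHom Fact.out hlN ℂ hF.periodHom := by
  refine AddMonoidHom.ext fun γ => ?_
  change (isEquivariantPrimitive_heckeSum hlN hF).period (Additive.toMul γ) =
    heckeHom Fact.out hlN ℂ hF.periodHom (Additive.ofMul (Additive.toMul γ))
  rw [heckeHom_apply, IsEquivariantPrimitive.period, heckeSum_equivariant hlN hF]
  rfl

theorem hasDerivAt_heckeSum [hp : Fact l.Prime] {f F : ℍ → ℂ}
    (hF : ∀ τ : ℍ, HasDerivAt (F ∘ ofComplex) (f τ) (τ : ℂ)) (τ : ℍ) :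
    HasDerivAt (heckeSum (l := l) F ∘ ofComplex) (heckeT 2 l f τ) (τ : ℂ) := by
  have hl0 : l ≠ 0 := hp.out.ne_zero
  have hl0' : (l : ℂ) ≠ 0 := by exact_mod_cast hl0
  have e : heckeSum (l := l) F ∘ ofComplex = fun z =>
      F (heckeDiagMatrix l • ofComplex z) +
        ∑ j ∈ Finset.range l, F (heckeMatrix l j • ofComplex z) := by
    funext z
    exact heckeSum_eq F _
  rw [e, heckeT_apply 2 hl0]
  have hopen : ∀ᶠ z in nhds (τ : ℂ), 0 < z.im :=
    (isOpen_lt continuous_const Complex.continuous_im).mem_nhds τ.im_pos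
  have h1 : ∀ j : ℕ, HasDerivAt (fun z => F (heckeMatrix l j • ofComplex z))
      ((l : ℂ)⁻¹ * f (heckeMatrix l j • τ)) (τ : ℂ) := by
    intro j
    have hj : HasDerivAt (fun z : ℂ => (z + j) / l) ((l : ℂ)⁻¹) (τ : ℂ) := by
      have := ((hasDerivAt_id (τ : ℂ)).add_const (j : ℂ)).div_const (l : ℂ)
      simpa [one_div] using this
    have hcoe : ((heckeMatrix l j • τ : ℍ) : ℂ) = ((τ : ℂ) + j) / l := coe_heckeMatrix_smul hl0 j τ
    have hF' := hF (heckeMatrix l j • τ)
    rw [hcoe] at hF'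
    have := HasDerivAt.comp (τ : ℂ) hF' hj
    rw [mul_comm]
    refine this.congr_of_eventuallyEq ?_
    filter_upwards [hopen] with z hz
    simp only [Function.comp_apply]
    congr 1
    apply UpperHalfPlane.ext
    rw [coe_heckeMatrix_smul hl0 j, ofComplex_apply_of_im_pos hz, ofComplex_apply_of_im_pos]
    · rw [Complex.div_natCast_im, Complex.add_im, Complex.natCast_im, add_zero]
      have : (0 : ℝ) < l := by exact_mod_cast Nat.pos_of_ne_zero hl0
      positivity
  have h2 : HasDerivAt (fun z => F (heckeDiagMatrix l • ofComplex z))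
      ((l : ℂ) ^ ((2 : ℤ) - 1) * f (heckeDiagMatrix l • τ)) (τ : ℂ) := by
    have hj : HasDerivAt (fun z : ℂ => (l : ℂ) * z) ((l : ℂ)) (τ : ℂ) := by
      simpa using (hasDerivAt_id (τ : ℂ)).const_mul (l : ℂ)
    have hcoe : ((heckeDiagMatrix l • τ : ℍ) : ℂ) = (l : ℂ) * (τ : ℂ) :=
      coe_heckeDiagMatrix_smul hl0 τ
    have hF' := hF (heckeDiagMatrix l • τ)
    rw [hcoe] at hF'
    have := HasDerivAt.comp (τ : ℂ) hF' hj
    rw [show ((2 : ℤ) - 1) = 1 by norm_num, zpow_one, mul_comm]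
    refine this.congr_of_eventuallyEq ?_
    filter_upwards [hopen] with z hz
    simp only [Function.comp_apply]
    congr 1
    apply UpperHalfPlane.ext
    rw [coe_heckeDiagMatrix_smul hl0, ofComplex_apply_of_im_pos hz, ofComplex_apply_of_im_pos]
    · rw [← nsmul_eq_mul, Complex.smul_im, nsmul_eq_mul]
      have : (0 : ℝ) < l := by exact_mod_cast Nat.pos_of_ne_zero hl0
      positivity
  have h3 := h2.add (HasDerivAt.fun_sum (u := Finset.range l) fun j _ => h1 j)
  rw [← Finset.mul_sum] at h3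
  rw [add_comm ((l : ℂ)⁻¹ * _)]
  exact h3

end Fermat.Agent.HeckeHom

end
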