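import Fermat.Agent.HeckeHom.Period
import Fermat.Agent.HeckeHom.Char
import Fermat.Agent.Period.Equivariant
import Fermat.Prelude.Def_CuspForm_HeckeAlgebra

/-!
Compatibility of the Hecke operator `T_l` on `S_2(Γ₀(N))` with the operator `heckeHom` on
`Hom(Γ₀(N), ℂ)` under the period map and the Eichler–Shimura map `periodHomPair`.
-/

set_option autoImplicit false

noncomputable section

namespace Fermat.Agent.HeckeHom

open Matrix.SpecialLinearGroup UpperHalfPlane CongruenceSubgroup
open P2MW.S_ModularForm_heckeT_slash_eq_self_of_mem_Gamma0.ModularForm.HeckeSlashInvariance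
open ModularForm ModularCurve.Period
open Fermat.Agent.Period
open scoped MatrixGroups

variable {N l : ℕ}

/-- `periodMap (T_l f) = T_l (periodMap f)`. -/
theorem periodMap_heckeTLin [NeZero N] (hl : l.Prime) (hlN : ¬ l ∣ N)
    (f : CuspForm (Gamma0 N) 2) :
    ModularCurve.periodMap N (CuspForm.heckeTLin 2 hl hlN f) =
      heckeHom hl hlN ℂ (ModularCurve.periodMap N f) := by
  have : Fact l.Prime := ⟨hl⟩
  obtain ⟨F, hF, eF⟩ := ModularCurve.periodMap_def N f (hasEquivariantPrimitive_prim N f)
  obtain ⟨G, hG, eG⟩ := ModularCurve.periodMap_def N (CuspForm.heckeTLin 2 hl hlN f)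
    (hasEquivariantPrimitive_prim N _)
  rw [eF, eG, ← periodHom_heckeSum hlN hF.2.2.1]
  obtain rfl := hasEquivariantPrimitive_unique N _ hG
  have hd := hasDerivAt_heckeSum (l := l) hF.1
  have hc := fun z w => sub_prim_const
    (adm_cuspForm (CuspForm.heckeTLin 2 hl hlN f)).decays (F := heckeSum (l := l) F) hd z w
  refine AddMonoidHom.ext fun γ' => ?_
  obtain ⟨γ, rfl⟩ := Additive.ofMul.surjective γ'
  rw [IsEquivariantPrimitive.periodHom_apply, IsEquivariantPrimitive.periodHom_apply,
    ← hG.2.2.1.sub_eq_period γ I, ← (isEquivariantPrimitive_heckeSum hlN hF.2.2.1).sub_eq_period γ I]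
  have := hc ((γ : SL(2, ℤ)) • I) I
  linear_combination -this

/-- Hecke equivariance of the Eichler–Shimura map. -/
theorem periodHomPair_heckeTLin [NeZero N] (hl : l.Prime) (hlN : ¬ l ∣ N)
    (x : CuspForm (Gamma0 N) 2 × CuspForm (Gamma0 N) 2) :
    ModularCurve.periodHomPair N (CuspForm.heckeTLin 2 hl hlN x.1, CuspForm.heckeTLin 2 hl hlN x.2) =
      heckeHom hl hlN ℂ (ModularCurve.periodHomPair N x) := by
  rw [periodHomPair_eq]
  simp only [LinearMap.coprod_apply, LinearMap.comp_apply, LinearMap.add_apply,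
    LinearMap.sub_apply, LinearMap.id_apply, periodMapLin_apply, periodMap_heckeTLin, map_add,
    map_sub, heckeHom_charInvolution]

end Fermat.Agent.HeckeHom

end
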