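import Fermat.Agent.HeckeHom.UOp

/-!
Compatibility of `U_q` (`q ∣ N`) with the period map.
-/

set_option autoImplicit false

noncomputable section

namespace Fermat.Agent.HeckeHom

open Matrix.SpecialLinearGroup UpperHalfPlane CongruenceSubgroup
open P2MW.S_ModularForm_heckeT_slash_eq_self_of_mem_Gamma0.ModularForm.HeckeSlashInvariance
open ModularForm ModularCurve.Period
open Fermat.Agent.Period
open scoped MatrixGroups

variable {N : ℕ}

theorem sumFun_dataU (q : ℕ) [NeZero q] (hq : q ∣ N) (F : ℍ → ℂ) (τ : ℍ) :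
    (dataU q hq).sumFun F τ = ∑ j ∈ Finset.range q, F (heckeMatrix q j • τ) := by
  rw [HData.sumFun]
  change ∑ x : ZMod q, F (heckeMatrix q x.val • τ) = _
  refine Finset.sum_nbij' (fun x : ZMod q => x.val) (fun j => (j : ZMod q)) ?_ ?_ ?_ ?_ ?_
  · intro x _
    exact Finset.mem_range.mpr (ZMod.val_lt x)
  · intro j _
    exact Finset.mem_univ _
  · intro x _
    exact ZMod.natCast_zmod_val x
  · intro j hj
    exact ZMod.val_cast_of_lt (Finset.mem_range.mp hj)
  · intro x _
    rfl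

theorem hasDerivAt_sumFun_dataU (q : ℕ) [NeZero q] (hq : q ∣ N) {f F : ℍ → ℂ}
    (hF : ∀ τ : ℍ, HasDerivAt (F ∘ ofComplex) (f τ) (τ : ℂ)) (τ : ℍ) :
    HasDerivAt ((dataU q hq).sumFun F ∘ ofComplex) (heckeU 2 q f τ) (τ : ℂ) := by
  have hl0 : q ≠ 0 := NeZero.ne q
  have hl0' : (q : ℂ) ≠ 0 := by exact_mod_cast hl0
  have e : (dataU q hq).sumFun F ∘ ofComplex = fun z =>
      ∑ j ∈ Finset.range q, F (heckeMatrix q j • ofComplex z) := by
    funext z
    exact sumFun_dataU q hq F _
  rw [e, heckeU_apply 2 hl0]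
  have hopen : ∀ᶠ z in nhds (τ : ℂ), 0 < z.im :=
    (isOpen_lt continuous_const Complex.continuous_im).mem_nhds τ.im_pos
  have h1 : ∀ j : ℕ, HasDerivAt (fun z => F (heckeMatrix q j • ofComplex z))
      ((q : ℂ)⁻¹ * f (heckeMatrix q j • τ)) (τ : ℂ) := by
    intro j
    have hj : HasDerivAt (fun z : ℂ => (z + j) / q) ((q : ℂ)⁻¹) (τ : ℂ) := by
      have := ((hasDerivAt_id (τ : ℂ)).add_const (j : ℂ)).div_const (q : ℂ)
      simpa [one_div] using this
    have hcoe : ((heckeMatrix q j • τ : ℍ) : ℂ) = ((τ : ℂ) + j) / q := coe_heckeMatrix_smul hl0 j τ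
    have hF' := hF (heckeMatrix q j • τ)
    rw [hcoe] at hF'
    have := HasDerivAt.comp (τ : ℂ) hF' hj
    rw [mul_comm]
    refine this.congr_of_eventuallyEq ?_
    filter_upwards [hopen] with z hz
    simp only [Function.comp_apply]
    congr 1
    apply UpperHalfPlane.ext
    rw [coe_heckeMatrix_smul hl0 j, ofComplex_apply_of_im_pos hz, ofComplex_apply_of_im_pos]
    · rw [Complex.div_natCast_im, Complex.add_im, Complex.natCast_im, add_zero]
      have : (0 : ℝ) < q := by exact_mod_cast Nat.pos_of_ne_zero hl0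
      positivity
  rw [Finset.mul_sum]
  exact HasDerivAt.fun_sum (u := Finset.range q) fun j _ => h1 j

/-- general principle: `periodMap g = D.hom (periodMap f)` as soon as `∑ F(α_x τ)` is a primitive
of `g`. -/
theorem periodMap_of_hasDerivAt [NeZero N] (D : HData (Gamma0 N) (Gamma0 N))
    (f g : CuspForm (Gamma0 N) 2)
    (h : ∀ F : ℍ → ℂ, (∀ τ : ℍ, HasDerivAt (F ∘ ofComplex) (f τ) (τ : ℂ)) → ∀ τ : ℍ,
      HasDerivAt (D.sumFun F ∘ ofComplex) (g τ) (τ : ℂ)) :
    ModularCurve.periodMap N g = D.hom ℂ (ModularCurve.periodMap N f) := by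
  obtain ⟨F, hF, eF⟩ := ModularCurve.periodMap_def N f (hasEquivariantPrimitive_prim N f)
  obtain ⟨G, hG, eG⟩ := ModularCurve.periodMap_def N g (hasEquivariantPrimitive_prim N _)
  rw [eF, eG, ← D.periodHom_sumFun hF.2.2.1]
  obtain rfl := hasEquivariantPrimitive_unique N _ hG
  have hd := h F hF.1
  have hc := fun z w => sub_prim_const (adm_cuspForm g).decays (F := D.sumFun F) hd z w
  refine AddMonoidHom.ext fun γ' => ?_
  obtain ⟨γ, rfl⟩ := Additive.ofMul.surjective γ'
  rw [IsEquivariantPrimitive.periodHom_apply, IsEquivariantPrimitive.periodHom_apply,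
    ← hG.2.2.1.sub_eq_period γ I, ← (D.isEquivariantPrimitive_sumFun hF.2.2.1).sub_eq_period γ I]
  have := hc ((γ : SL(2, ℤ)) • I) I
  linear_combination -this

/-- `periodMap (U_q f) = U_q (periodMap f)`. -/
theorem periodMap_heckeULin [NeZero N] {q : ℕ} [NeZero q] (hq : q ∣ N)
    (f : CuspForm (Gamma0 N) 2) :
    ModularCurve.periodMap N (CuspForm.heckeULin 2 hq f) =
      (dataU q hq).hom ℂ (ModularCurve.periodMap N f) :=
  periodMap_of_hasDerivAt _ _ _ fun _ hF => hasDerivAt_sumFun_dataU q hq hF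

/-- Hecke equivariance of the Eichler–Shimura map for `U_q`. -/
theorem periodHomPair_heckeULin [NeZero N] {q : ℕ} [NeZero q] (hq : q ∣ N)
    (x : CuspForm (Gamma0 N) 2 × CuspForm (Gamma0 N) 2) :
    ModularCurve.periodHomPair N (CuspForm.heckeULin 2 hq x.1, CuspForm.heckeULin 2 hq x.2) =
      (dataU q hq).hom ℂ (ModularCurve.periodHomPair N x) := by
  rw [periodHomPair_eq]
  simp only [LinearMap.coprod_apply, LinearMap.comp_apply, LinearMap.add_apply,
    LinearMap.sub_apply, LinearMap.id_apply, periodMapLin_apply, periodMap_heckeULin, map_add,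
    map_sub, (dataU q hq).hom_charInvolution (epsCompat_dataU q hq)]

end Fermat.Agent.HeckeHom

end
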