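import Fermat.Agent.HeckeHom.PeriodU
import Fermat.Agent.HeckeHom.Theta

/-!
The full Hecke algebra (including the `U_q`, arbitrary `S`) acts faithfully on
`parabolicHoms R (Gamma0 N) R` (given Eichler–Shimura S21).
-/

set_option autoImplicit false

noncomputable section

namespace Fermat.Agent.HeckeHom

open Matrix.SpecialLinearGroup UpperHalfPlane CongruenceSubgroup
open ModularForm ModularCurve.Period
open scoped MatrixGroups

/-- A Hecke operator: a geometric datum together with its action on `S_2`. -/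
structure Op (N : ℕ) [NeZero N] where
  /-- the geometric datum -/
  D : HData (Gamma0 N) (Gamma0 N)
  /-- the action on cusp forms -/
  T : Module.End ℂ (CuspForm (Gamma0 N) 2)
  compat : ∀ x : CuspForm (Gamma0 N) 2 × CuspForm (Gamma0 N) 2,
    ModularCurve.periodHomPair N (T x.1, T x.2) = D.hom ℂ (ModularCurve.periodHomPair N x)

variable {N : ℕ} [NeZero N]

namespace Op

/-- `T_l` -/
def ofT {l : ℕ} (hl : l.Prime) (hlN : ¬ l ∣ N) : Op N where
  D := dataT hl hlN
  T := CuspForm.heckeTLin 2 hl hlN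
  compat x := by rw [hom_dataT]; exact periodHomPair_heckeTLin hl hlN x

/-- `U_q` -/
def ofU {q : ℕ} (hq : q ∣ N) : Op N :=
  haveI : NeZero q := ⟨fun h => NeZero.ne N (Nat.eq_zero_of_zero_dvd (h ▸ hq))⟩
  { D := dataU q hq
    T := CuspForm.heckeULin 2 hq
    compat := periodHomPair_heckeULin hq }

end Op

section Abstract

variable {ι : Type} (F : ι → Op N)

/-- action of the free algebra on `parabolicHoms` -/
def actParG (R : Type*) [CommRing R] (A : Type*) [AddCommGroup A] [Module R A] :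
    FreeAlgebra ℤ ι →ₐ[ℤ] Module.End R (parabolicHoms R (Gamma0 N) A) :=
  FreeAlgebra.lift ℤ fun i => (F i).D.par A R

/-- action of the free algebra on `S_2` -/
def actCuspG : FreeAlgebra ℤ ι →ₐ[ℤ] Module.End ℂ (CuspForm (Gamma0 N) 2) :=
  FreeAlgebra.lift ℤ fun i => (F i).T

theorem actParG_natural {R R' : Type*} [CommRing R] [CommRing R'] {A B : Type*} [AddCommGroup A]
    [AddCommGroup B] [Module R A] [Module R' B] (f : A →+ B) (x : FreeAlgebra ℤ ι) :
    ∀ (ψ : parabolicHoms R (Gamma0 N) A) (ψ' : parabolicHoms R' (Gamma0 N) B),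
      (ψ' : Additive (Gamma0 N) →+ B) = f.comp ψ →
      (actParG F R' B x ψ' : Additive (Gamma0 N) →+ B) =
        f.comp (actParG F R A x ψ : Additive (Gamma0 N) →+ A) := by
  induction x using FreeAlgebra.induction with
  | grade0 n =>
    intro ψ ψ' h
    rw [AlgHom.commutes, AlgHom.commutes, Module.algebraMap_end_apply, Module.algebraMap_end_apply]
    have e1 : ((n • ψ' : parabolicHoms R' (Gamma0 N) B) : Additive (Gamma0 N) →+ B) =
      n • (ψ' : Additive (Gamma0 N) →+ B) := rfl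
    have e2 : ((n • ψ : parabolicHoms R (Gamma0 N) A) : Additive (Gamma0 N) →+ A) =
      n • (ψ : Additive (Gamma0 N) →+ A) := rfl
    rw [e1, e2, h]
    ext g
    simp
  | grade1 i =>
    intro ψ ψ' h
    rw [actParG, actParG, FreeAlgebra.lift_ι_apply, FreeAlgebra.lift_ι_apply, HData.coe_par,
      HData.coe_par, h, HData.hom_comp]
  | mul x y hx hy =>
    intro ψ ψ' h
    rw [map_mul, map_mul]
    exact hx _ _ (hy _ _ h)
  | add x y hx hy =>
    intro ψ ψ' h
    rw [map_add, map_add, LinearMap.add_apply, LinearMap.add_apply]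
    have e1 := hx _ _ h
    have e2 := hy _ _ h
    rw [Submodule.coe_add, Submodule.coe_add, e1, e2]
    ext g
    simp

theorem periodHomPair_actCuspG (x : FreeAlgebra ℤ ι) :
    ∀ (f g : CuspForm (Gamma0 N) 2) (ψ : parabolicHoms ℂ (Gamma0 N) ℂ),
      (ψ : Additive (Gamma0 N) →+ ℂ) = ModularCurve.periodHomPair N (f, g) →
      (actParG F ℂ ℂ x ψ : Additive (Gamma0 N) →+ ℂ) =
        ModularCurve.periodHomPair N (actCuspG F x f, actCuspG F x g) := by
  induction x using FreeAlgebra.induction with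
  | grade0 n =>
    intro f g ψ h
    rw [AlgHom.commutes, AlgHom.commutes, Module.algebraMap_end_apply, Module.algebraMap_end_apply,
      Module.algebraMap_end_apply]
    have e1 : ((n • ψ : parabolicHoms ℂ (Gamma0 N) ℂ) : Additive (Gamma0 N) →+ ℂ) =
      n • (ψ : Additive (Gamma0 N) →+ ℂ) := rfl
    rw [e1, h, ← map_zsmul, Prod.smul_mk]
  | grade1 i =>
    intro f g ψ h
    rw [actParG, actCuspG, FreeAlgebra.lift_ι_apply, FreeAlgebra.lift_ι_apply, HData.coe_par, h,
      ← (F i).compat]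
  | mul x y hx hy =>
    intro f g ψ h
    rw [map_mul, map_mul]
    exact hx _ _ _ (hy _ _ _ h)
  | add x y hx hy =>
    intro f g ψ h
    rw [map_add, map_add, LinearMap.add_apply]
    have e1 := hx _ _ _ h
    have e2 := hy _ _ _ h
    rw [Submodule.coe_add, e1, e2, ← map_add, Prod.mk_add_mk]
    rfl

theorem actParG_eq_zero_iff {R : Type*} [CommRing R] [CharZero R] [IsAddTorsionFree R]
    (x : FreeAlgebra ℤ ι) : actParG F R R x = 0 ↔ actParG F ℤ ℤ x = 0 := by
  constructor
  · intro h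
    refine LinearMap.ext fun ψ => Subtype.ext ?_
    let ψ' : parabolicHoms R (Gamma0 N) R :=
      ⟨(Int.castAddHom R).comp (ψ : Additive (Gamma0 N) →+ ℤ), fun γ hγ => by
        rw [AddMonoidHom.comp_apply, ψ.2 γ hγ, map_zero]⟩
    have h1 := actParG_natural F (R := ℤ) (R' := R) (Int.castAddHom R) x ψ ψ' rfl
    rw [h] at h1
    refine AddMonoidHom.ext fun g => ?_
    have h2 := DFunLike.congr_fun h1 g
    have h3 : (((actParG F ℤ ℤ x ψ : Additive (Gamma0 N) →+ ℤ) g : ℤ) : R) = 0 := h2.symm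
    exact_mod_cast h3
  · intro h
    refine LinearMap.ext fun ψ => ?_
    obtain ⟨n, a, φ, h1, h2⟩ := exists_decomp (ψ : Additive (Gamma0 N) →+ R)
    let φ' : Fin n → parabolicHoms ℤ (Gamma0 N) ℤ := fun i =>
      ⟨φ i, fun γ hγ => h1 _ (ψ.2 γ hγ) i⟩
    let φR : Fin n → parabolicHoms R (Gamma0 N) R := fun i =>
      ⟨(Int.castAddHom R).comp (φ i), fun γ hγ => by
        rw [AddMonoidHom.comp_apply, h1 _ (ψ.2 γ hγ) i, map_zero]⟩
    have h3 : ψ = ∑ i, a i • φR i := by
      apply Subtype.ext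
      refine AddMonoidHom.ext fun g => ?_
      rw [h2 g, AddSubmonoidClass.coe_finsetSum, AddMonoidHom.finsetSum_apply]
      refine Finset.sum_congr rfl fun i _ => ?_
      change φ i g • a i = a i * ((φ i g : ℤ) : R)
      rw [zsmul_eq_mul, mul_comm]
    rw [h3, map_sum, LinearMap.zero_apply]
    refine Finset.sum_eq_zero fun i _ => ?_
    rw [map_smul]
    have h4 := actParG_natural F (R := ℤ) (R' := R) (Int.castAddHom R) x (φ' i) (φR i) rfl
    have h5 : actParG F R R x (φR i) = 0 := by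
      apply Subtype.ext
      rw [h4, h]
      ext g
      simp
    rw [h5, smul_zero]

theorem actCuspG_eq_zero_iff (hES : ES N) (x : FreeAlgebra ℤ ι) :
    actCuspG F x = 0 ↔ actParG F ℂ ℂ x = 0 := by
  constructor
  · intro h
    refine LinearMap.ext fun ψ => Subtype.ext ?_
    have h1 : (ψ : Additive (Gamma0 N) →+ ℂ) ∈ LinearMap.range (ModularCurve.periodHomPair N) := by
      rw [hES.2]; exact ψ.2
    obtain ⟨⟨f, g⟩, h2⟩ := h1
    rw [periodHomPair_actCuspG F x f g ψ h2.symm, h]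
    exact map_zero _
  · intro h
    refine LinearMap.ext fun f => ?_
    let ψ : parabolicHoms ℂ (Gamma0 N) ℂ := ⟨ModularCurve.periodHomPair N (f, 0), by
      rw [← hES.2]; exact ⟨_, rfl⟩⟩
    have h1 := periodHomPair_actCuspG F x f 0 ψ rfl
    rw [h] at h1
    have h2 : ModularCurve.periodHomPair N (actCuspG F x f, actCuspG F x 0) =
      ModularCurve.periodHomPair N 0 := by
      rw [← h1, map_zero]; rfl
    exact congrArg Prod.fst (hES.1 h2)

end Abstract

section Full

variable (N) (S : Set ℕ)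

/-- index set of the generators of the full Hecke algebra -/
abbrev IdxF : Type := {l : ℕ // l.Prime ∧ ¬ l ∣ N ∧ l ∉ S} ⊕ {q : ℕ // q.Prime ∧ q ∣ N ∧ q ∉ S}

/-- the generators -/
def gens : IdxF N S → Op N :=
  Sum.elim (fun l => Op.ofT l.2.1 l.2.2.1) (fun q => Op.ofU q.2.2.1)

theorem range_actCuspG : (actCuspG (gens N S)).range = CuspForm.heckeAlgebra N 2 S := by
  rw [actCuspG, ← Algebra.adjoin_range_eq_range_freeAlgebra_lift, CuspForm.heckeAlgebra]
  congr 1
  ext T
  constructor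
  · rintro ⟨i | i, rfl⟩
    · exact Or.inl ⟨i.1, i.2.1, i.2.2.1, i.2.2.2, rfl⟩
    · exact Or.inr ⟨i.1, i.2.2.1, i.2.1, i.2.2.2, rfl⟩
  · rintro (⟨ℓ, hℓ, hℓN, hℓS, rfl⟩ | ⟨q, hqN, hq, hqS, rfl⟩)
    · exact ⟨Sum.inl ⟨ℓ, hℓ, hℓN, hℓS⟩, rfl⟩
    · exact ⟨Sum.inr ⟨q, hq, hqN, hqS⟩, rfl⟩

/-- the free algebra surjects onto the Hecke algebra -/
def toHeckeF : FreeAlgebra ℤ (IdxF N S) →ₐ[ℤ] CuspForm.heckeAlgebra N 2 S :=
  (actCuspG (gens N S)).codRestrict _ fun x => by rw [← range_actCuspG]; exact ⟨x, rfl⟩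

variable {N S}

theorem toHeckeF_surjective : Function.Surjective (toHeckeF N S) := by
  rintro ⟨T, hT⟩
  rw [← range_actCuspG] at hT
  obtain ⟨x, hx⟩ := hT
  exact ⟨x, Subtype.ext hx⟩

theorem toHeckeF_inl {ℓ : ℕ} (hℓ : ℓ.Prime) (hℓN : ¬ ℓ ∣ N) (hℓS : ℓ ∉ S) :
    toHeckeF N S (FreeAlgebra.ι ℤ (Sum.inl ⟨ℓ, hℓ, hℓN, hℓS⟩)) =
      CuspForm.heckeAlgebra.T hℓ hℓN hℓS := by
  apply Subtype.ext
  change actCuspG (gens N S) (FreeAlgebra.ι ℤ (Sum.inl ⟨ℓ, hℓ, hℓN, hℓS⟩)) =
    CuspForm.heckeTLin 2 hℓ hℓN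
  rw [actCuspG, FreeAlgebra.lift_ι_apply]
  rfl

theorem toHeckeF_inr {q : ℕ} (hq : q.Prime) (hqN : q ∣ N) (hqS : q ∉ S) :
    toHeckeF N S (FreeAlgebra.ι ℤ (Sum.inr ⟨q, hq, hqN, hqS⟩)) =
      CuspForm.heckeAlgebra.U hq hqN hqS := by
  apply Subtype.ext
  change actCuspG (gens N S) (FreeAlgebra.ι ℤ (Sum.inr ⟨q, hq, hqN, hqS⟩)) =
    CuspForm.heckeULin 2 hqN
  rw [actCuspG, FreeAlgebra.lift_ι_apply]
  rfl

theorem toHeckeF_eq_zero_iff (hES : ES N) (R : Type*) [CommRing R] [CharZero R]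
    [IsAddTorsionFree R] (x : FreeAlgebra ℤ (IdxF N S)) :
    toHeckeF N S x = 0 ↔ actParG (gens N S) R R x = 0 := by
  rw [actParG_eq_zero_iff, ← actParG_eq_zero_iff (R := ℂ), ← actCuspG_eq_zero_iff _ hES]
  exact Subtype.ext_iff

theorem toHeckeF_eq_iff (hES : ES N) (R : Type*) [CommRing R] [CharZero R]
    [IsAddTorsionFree R] (x y : FreeAlgebra ℤ (IdxF N S)) :
    toHeckeF N S x = toHeckeF N S y ↔
      actParG (gens N S) R R x = actParG (gens N S) R R y := by
  rw [← sub_eq_zero, ← map_sub, toHeckeF_eq_zero_iff hES R, map_sub, sub_eq_zero]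

/-- The faithful action of the full Hecke algebra on `parabolicHoms R (Gamma0 N) R`. -/
def thetaF (hES : ES N) (S : Set ℕ)
    (R : Type*) [CommRing R] [CharZero R] [IsAddTorsionFree R] :
    CuspForm.heckeAlgebra N 2 S →+* Module.End R (parabolicHoms R (Gamma0 N) R) where
  toFun T := actParG (gens N S) R R (Function.surjInv toHeckeF_surjective T)
  map_one' := by
    rw [← map_one (actParG (gens N S) R R), ← toHeckeF_eq_iff hES,
      Function.surjInv_eq toHeckeF_surjective, map_one]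
  map_mul' T T' := by
    rw [← map_mul (actParG (gens N S) R R), ← toHeckeF_eq_iff hES,
      Function.surjInv_eq toHeckeF_surjective, map_mul,
      Function.surjInv_eq toHeckeF_surjective, Function.surjInv_eq toHeckeF_surjective]
  map_zero' := by
    rw [← map_zero (actParG (gens N S) R R), ← toHeckeF_eq_iff hES,
      Function.surjInv_eq toHeckeF_surjective, map_zero]
  map_add' T T' := by
    rw [← map_add (actParG (gens N S) R R), ← toHeckeF_eq_iff hES,
      Function.surjInv_eq toHeckeF_surjective, map_add,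
      Function.surjInv_eq toHeckeF_surjective, Function.surjInv_eq toHeckeF_surjective]

theorem thetaF_toHeckeF (hES : ES N) (R : Type*) [CommRing R] [CharZero R]
    [IsAddTorsionFree R] (x : FreeAlgebra ℤ (IdxF N S)) :
    thetaF hES S R (toHeckeF N S x) = actParG (gens N S) R R x :=
  (toHeckeF_eq_iff hES R _ _).mp (Function.surjInv_eq toHeckeF_surjective _)

theorem thetaF_T (hES : ES N) (R : Type*) [CommRing R] [CharZero R] [IsAddTorsionFree R]
    {ℓ : ℕ} (hℓ : ℓ.Prime) (hℓN : ¬ ℓ ∣ N) (hℓS : ℓ ∉ S) :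
    thetaF hES S R (CuspForm.heckeAlgebra.T hℓ hℓN hℓS) = (dataT hℓ hℓN).par R R := by
  rw [← toHeckeF_inl, thetaF_toHeckeF, actParG, FreeAlgebra.lift_ι_apply]
  rfl

theorem thetaF_T' (hES : ES N) (R : Type*) [CommRing R] [CharZero R] [IsAddTorsionFree R]
    {ℓ : ℕ} (hℓ : ℓ.Prime) (hℓN : ¬ ℓ ∣ N) (hℓS : ℓ ∉ S) :
    thetaF hES S R (CuspForm.heckeAlgebra.T hℓ hℓN hℓS) = parHecke R R hℓ hℓN := by
  rw [thetaF_T]
  refine LinearMap.ext fun ψ => Subtype.ext ?_
  rw [HData.coe_par, coe_parHecke, hom_dataT]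

theorem thetaF_U (hES : ES N) (R : Type*) [CommRing R] [CharZero R] [IsAddTorsionFree R]
    {q : ℕ} (hq : q.Prime) (hqN : q ∣ N) (hqS : q ∉ S) :
    haveI : NeZero q := ⟨hq.ne_zero⟩
    thetaF hES S R (CuspForm.heckeAlgebra.U hq hqN hqS) = (dataU q hqN).par R R := by
  rw [← toHeckeF_inr, thetaF_toHeckeF, actParG, FreeAlgebra.lift_ι_apply]
  rfl

theorem thetaF_injective (hES : ES N) (S : Set ℕ) (R : Type*) [CommRing R] [CharZero R]
    [IsAddTorsionFree R] : Function.Injective (thetaF hES S R) := by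
  rw [injective_iff_map_eq_zero]
  intro T hT
  obtain ⟨x, rfl⟩ := toHeckeF_surjective T
  rw [thetaF_toHeckeF] at hT
  exact (toHeckeF_eq_zero_iff hES R x).mpr hT

/-- naturality of `thetaF` in the coefficient ring. -/
theorem thetaF_natural (hES : ES N)
    {R R' : Type*} [CommRing R] [CharZero R] [IsAddTorsionFree R]
    [CommRing R'] [CharZero R'] [IsAddTorsionFree R'] (f : R →+ R')
    (T : CuspForm.heckeAlgebra N 2 S)
    (ψ : parabolicHoms R (Gamma0 N) R) (ψ' : parabolicHoms R' (Gamma0 N) R')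
    (h : (ψ' : Additive (Gamma0 N) →+ R') = f.comp ψ) :
    (thetaF hES S R' T ψ' : Additive (Gamma0 N) →+ R') =
      f.comp (thetaF hES S R T ψ : Additive (Gamma0 N) →+ R) := by
  obtain ⟨x, rfl⟩ := toHeckeF_surjective T
  rw [thetaF_toHeckeF, thetaF_toHeckeF]
  exact actParG_natural _ f x ψ ψ' h

/-- Eichler–Shimura is equivariant for the full Hecke algebra. -/
theorem thetaF_periodHomPair (hES : ES N) (T : CuspForm.heckeAlgebra N 2 S)
    (f g : CuspForm (Gamma0 N) 2) (ψ : parabolicHoms ℂ (Gamma0 N) ℂ)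
    (h : (ψ : Additive (Gamma0 N) →+ ℂ) = ModularCurve.periodHomPair N (f, g)) :
    (thetaF hES S ℂ T ψ : Additive (Gamma0 N) →+ ℂ) = ModularCurve.periodHomPair N
      ((T : Module.End ℂ (CuspForm (Gamma0 N) 2)) f,
        (T : Module.End ℂ (CuspForm (Gamma0 N) 2)) g) := by
  obtain ⟨x, rfl⟩ := toHeckeF_surjective T
  rw [thetaF_toHeckeF]
  exact periodHomPair_actCuspG _ x f g ψ h

open scoped TensorProduct in
/-- The `R`-linear extension of `thetaF`. -/
def thetaFR (hES : ES N) (S : Set ℕ)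
    (R : Type*) [CommRing R] [CharZero R] [IsAddTorsionFree R] :
    R ⊗[ℤ] (CuspForm.heckeAlgebra N 2 S) →ₐ[R] Module.End R (parabolicHoms R (Gamma0 N) R) :=
  Algebra.TensorProduct.lift (Algebra.ofId R _)
    { thetaF hES S R with
      commutes' := fun n => by
        change thetaF hES S R (algebraMap ℤ _ n) = _
        rw [eq_intCast, eq_intCast, map_intCast] }
    fun r _ => Algebra.commutes r _

open scoped TensorProduct in
theorem thetaFR_tmul (hES : ES N) (S : Set ℕ)
    (R : Type*) [CommRing R] [CharZero R] [IsAddTorsionFree R] (r : R)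
    (T : CuspForm.heckeAlgebra N 2 S) :
    thetaFR hES S R (r ⊗ₜ[ℤ] T) = r • thetaF hES S R T := by
  rw [thetaFR, Algebra.TensorProduct.lift_tmul]
  change algebraMap R _ r * thetaF hES S R T = _
  rw [Algebra.smul_def]

/-- `R ⊗ 𝕋` acts faithfully on `parabolicHoms R (Gamma0 N) R`. -/
theorem thetaFR_injective (hES : ES N) (S : Set ℕ)
    (R : Type*) [CommRing R] [CharZero R] [IsAddTorsionFree R] :
    Function.Injective (thetaFR hES S R) := by
  rw [injective_iff_map_eq_zero]
  intro x hx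
  obtain ⟨n, r, U, hr, rfl⟩ := exists_indep_repr x
  have key : ∀ k, U k = 0 := by
    intro k
    apply thetaF_injective hES S ℤ
    rw [map_zero]
    refine LinearMap.ext fun e => Subtype.ext (AddMonoidHom.ext fun g => ?_)
    let e' : parabolicHoms R (Gamma0 N) R :=
      ⟨(Int.castAddHom R).comp (e : Additive (Gamma0 N) →+ ℤ), fun γ hγ => by
        rw [AddMonoidHom.comp_apply, e.2 γ hγ, map_zero]⟩
    have h1 : ∀ i, (thetaF hES S R (U i) e' : Additive (Gamma0 N) →+ R) =
        (Int.castAddHom R).comp (thetaF hES S ℤ (U i) e : Additive (Gamma0 N) →+ ℤ) :=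
      fun i => thetaF_natural hES (Int.castAddHom R) (U i) e e' rfl
    rw [map_sum] at hx
    have h2 := DFunLike.congr_fun hx e'
    have h3 := DFunLike.congr_fun (congrArg Subtype.val h2) g
    rw [LinearMap.sum_apply, AddSubmonoidClass.coe_finsetSum, AddMonoidHom.finsetSum_apply] at h3
    have h4 : ∑ i, ((thetaF hES S ℤ (U i) e : Additive (Gamma0 N) →+ ℤ) g) • r i = 0 := by
      rw [← show _ = (0 : R) from h3]
      refine Finset.sum_congr rfl fun i _ => ?_
      rw [thetaFR_tmul]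
      change _ = r i * (thetaF hES S R (U i) e' : Additive (Gamma0 N) →+ R) g
      rw [h1 i, zsmul_eq_mul, mul_comm]
      rfl
    exact Fintype.linearIndependent_iff.mp hr _ h4 k
  refine Finset.sum_eq_zero fun k _ => ?_
  rw [key k, TensorProduct.tmul_zero]

end Full

end Fermat.Agent.HeckeHom

end
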