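import Fermat.Agent.HeckeHom.Data
import Fermat.Agent.HeckeHom.PeriodMap

/-!
The operators `T_l` and `U_q` as instances of `HData`; compatibility with the period map.
-/

set_option autoImplicit false

noncomputable section

namespace Fermat.Agent.HeckeHom

open Matrix.SpecialLinearGroup UpperHalfPlane CongruenceSubgroup
open P2MW.S_ModularForm_heckeT_slash_eq_self_of_mem_Gamma0.ModularForm.HeckeSlashInvariance
open ModularForm ModularCurve.Period
open Fermat.Agent.Period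
open scoped MatrixGroups

variable {N l : ℕ}

section Involution

/-- compatibility of the family `α_x` with conjugation by `diag(1,-1)` -/
def HData.EpsCompat (D : HData (Gamma0 N) (Gamma0 N)) : Prop :=
  ∀ x : D.X, ∃ (y : D.X) (t : Gamma0 N), eps ℝ * D.α x * eps ℝ = mapGL ℝ (t : SL(2, ℤ)) * D.α y

theorem HData.hom_charInvolution (D : HData (Gamma0 N) (Gamma0 N)) (hD : D.EpsCompat)
    (R : Type*) [Semiring R] {A : Type*} [AddCommGroup A]
    [Module R A] (ψ : Additive (Gamma0 N) →+ A) :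
    D.hom A (charInvolution N R A ψ) = charInvolution N R A (D.hom A ψ) := by
  choose e t ht using hD
  refine AddMonoidHom.ext fun γ' => ?_
  change D.hom A (charInvolution N R A ψ) (Additive.ofMul (Additive.toMul γ')) =
    D.hom A ψ (Additive.ofMul (jConjGamma0 N (Additive.toMul γ')))
  generalize (Additive.toMul γ' : Gamma0 N) = γ
  rw [HData.hom_apply, HData.hom_apply]
  have ee := eps_mul_eps ℝ
  have conj : ∀ δ : Gamma0 N, mapGL ℝ (jConjGamma0 N δ : SL(2, ℤ)) =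
      eps ℝ * mapGL ℝ (δ : SL(2, ℤ)) * eps ℝ := fun δ => by
    rw [jConjGamma0_coe, ← eps_conj_mapGL]
  have hinj : Function.Injective e := by
    intro x y hxy
    apply D.uniq (jConjGamma0 N (t x * (t y)⁻¹)) x y
    have h1 := ht x
    have h2 := ht y
    rw [hxy] at h1
    rw [conj, Subgroup.coe_mul, map_mul, Subgroup.coe_inv, map_inv]
    have h3 : D.α x = eps ℝ * (mapGL ℝ (t x : SL(2, ℤ)) * D.α (e y)) * eps ℝ := by
      rw [← h1]
      calc D.α x = (eps ℝ * eps ℝ) * D.α x * (eps ℝ * eps ℝ) := by rw [ee]; group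
        _ = _ := by group
    have h4 : D.α (e y) = (mapGL ℝ (t y : SL(2, ℤ)))⁻¹ * (eps ℝ * D.α y * eps ℝ) := by
      rw [h2, inv_mul_cancel_left]
    rw [h3, h4]
    calc eps ℝ * (mapGL ℝ (t x : SL(2, ℤ)) * ((mapGL ℝ (t y : SL(2, ℤ)))⁻¹ *
          (eps ℝ * D.α y * eps ℝ))) * eps ℝ
        = eps ℝ * (mapGL ℝ (t x : SL(2, ℤ)) * (mapGL ℝ (t y : SL(2, ℤ)))⁻¹) * eps ℝ *
          D.α y * (eps ℝ * eps ℝ) := by group
      _ = _ := by rw [ee]; group
  have hbij : Function.Bijective e := Finite.injective_iff_bijective.mp hinj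
  have key : ∀ x : D.X, e (D.actFun γ x) = D.actFun (jConjGamma0 N γ) (e x) ∧
      (t x)⁻¹ * jConjGamma0 N (D.coc γ x) * t (D.actFun γ x) =
        D.coc (jConjGamma0 N γ) (e x) := by
    intro x
    apply D.eq_of_spec
    have h1 := D.spec γ x
    have h3 := ht x
    have h4 := ht (D.actFun γ x)
    have h5 : D.α (e x) = (mapGL ℝ (t x : SL(2, ℤ)))⁻¹ * (eps ℝ * D.α x * eps ℝ) := by
      rw [h3, inv_mul_cancel_left]
    rw [Subgroup.coe_mul, Subgroup.coe_mul, map_mul, map_mul, Subgroup.coe_inv, map_inv, conj,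
      conj, mul_assoc _ (mapGL ℝ (t (D.actFun γ x) : SL(2, ℤ))), ← h4, h5]
    calc (mapGL ℝ (t x : SL(2, ℤ)))⁻¹ * (eps ℝ * D.α x * eps ℝ) *
          (eps ℝ * mapGL ℝ (γ : SL(2, ℤ)) * eps ℝ)
        = (mapGL ℝ (t x : SL(2, ℤ)))⁻¹ * eps ℝ * D.α x * (eps ℝ * eps ℝ) *
          mapGL ℝ (γ : SL(2, ℤ)) * eps ℝ := by group
      _ = (mapGL ℝ (t x : SL(2, ℤ)))⁻¹ * eps ℝ * (D.α x * mapGL ℝ (γ : SL(2, ℤ))) * eps ℝ := by
          rw [ee]; group
      _ = (mapGL ℝ (t x : SL(2, ℤ)))⁻¹ * eps ℝ *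
          (mapGL ℝ (D.coc γ x : SL(2, ℤ)) * D.α (D.actFun γ x)) * eps ℝ := by rw [h1]
      _ = (mapGL ℝ (t x : SL(2, ℤ)))⁻¹ * eps ℝ * mapGL ℝ (D.coc γ x : SL(2, ℤ)) *
          (eps ℝ * eps ℝ) * D.α (D.actFun γ x) * eps ℝ := by rw [ee]; group
      _ = _ := by group
  have key2 : ∀ x : D.X,
      ψ (Additive.ofMul (jConjGamma0 N (D.coc γ x))) =
        ψ (Additive.ofMul (D.coc (jConjGamma0 N γ) (e x))) +
        (ψ (Additive.ofMul (t x)) - ψ (Additive.ofMul (t (D.actFun γ x)))) := by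
    intro x
    rw [← (key x).2, ofMul_mul, ofMul_mul, ofMul_inv, map_add, map_add, map_neg]
    abel
  have h5 : ∀ x : D.X, charInvolution N R A ψ (Additive.ofMul (D.coc γ x)) =
      ψ (Additive.ofMul (jConjGamma0 N (D.coc γ x))) := fun x => rfl
  rw [Finset.sum_congr rfl fun x _ => (h5 x).trans (key2 x), Finset.sum_add_distrib,
    Finset.sum_sub_distrib]
  have h6 : ∑ x : D.X, ψ (Additive.ofMul (t (D.actFun γ x))) =
      ∑ x, ψ (Additive.ofMul (t x)) :=
    Equiv.sum_comp (D.perm γ) (fun x => ψ (Additive.ofMul (t x)))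
  have h7 : ∑ x : D.X,
      ψ (Additive.ofMul (D.coc (jConjGamma0 N γ) (e x))) =
      ∑ x, ψ (Additive.ofMul (D.coc (jConjGamma0 N γ) x)) :=
    Equiv.sum_comp (Equiv.ofBijective e hbij)
      (fun x => ψ (Additive.ofMul (D.coc (jConjGamma0 N γ) x)))
  rw [h6, h7, sub_self, add_zero]

end Involution

section U

/-- `(1, j; 0, q)` for `j ∈ ℤ/q`. -/
def uRep (q : ℕ) [NeZero q] (j : ZMod q) : GL (Fin 2) ℝ := heckeMatrix q j.val

theorem uRep_val (q : ℕ) [NeZero q] (j : ZMod q) :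
    (uRep q j : Matrix (Fin 2) (Fin 2) ℝ) = !![(1 : ℝ), (j.val : ℝ); 0, (q : ℝ)] :=
  val_heckeMatrix (NeZero.ne q) _

theorem exists_uRep (q : ℕ) [NeZero q] (hq : q ∣ N) (γ : Gamma0 N) (j : ZMod q) :
    ∃ (j' : ZMod q) (δ : Gamma0 N), uRep q j * mapGL ℝ (γ : SL(2, ℤ)) =
      mapGL ℝ (δ : SL(2, ℤ)) * uRep q j' := by
  set a := (γ : SL(2, ℤ)) 0 0 with ha
  set b := (γ : SL(2, ℤ)) 0 1 with hb
  set c := (γ : SL(2, ℤ)) 1 0 with hc
  set d := (γ : SL(2, ℤ)) 1 1 with hd
  have hN : (N : ℤ) ∣ c := (ZMod.intCast_zmod_eq_zero_iff_dvd _ _).mp (Gamma0_mem.mp γ.2)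
  have hqc : (q : ℤ) ∣ c := (Int.natCast_dvd_natCast.mpr hq).trans hN
  have hdet : a * d - b * c = 1 := by
    have := (γ : SL(2, ℤ)).det_coe
    rw [Matrix.det_fin_two] at this
    exact this
  let j' : ZMod q := (d : ZMod q) * ((b : ZMod q) + j * d)
  have hcq : (c : ZMod q) = 0 := (ZMod.intCast_zmod_eq_zero_iff_dvd _ _).mpr hqc
  have hadq : (a : ZMod q) * d = 1 := by
    have := congrArg (Int.cast : ℤ → ZMod q) hdet
    push_cast at this
    rwa [hcq, mul_zero, sub_zero] at this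
  obtain ⟨B, hB⟩ : (q : ℤ) ∣ (b + j.val * d - (a + j.val * c) * j'.val) := by
    rw [← ZMod.intCast_zmod_eq_zero_iff_dvd]
    push_cast
    rw [ZMod.natCast_zmod_val, ZMod.natCast_zmod_val, hcq, mul_zero, add_zero]
    change (b : ZMod q) + j * d - a * (d * (b + j * d)) = 0
    rw [← mul_assoc, hadq, one_mul, sub_self]
  have hdet' : (!![a + j.val * c, B; q * c, d - c * j'.val] : Matrix (Fin 2) (Fin 2) ℤ).det = 1 := by
    rw [Matrix.det_fin_two_of]
    linear_combination hdet + c * hB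
  refine ⟨j', ⟨⟨_, hdet'⟩, ?_⟩, ?_⟩
  · rw [Gamma0_mem]
    change (((q * c : ℤ)) : ZMod N) = 0
    rw [(ZMod.intCast_zmod_eq_zero_iff_dvd _ _)]
    exact hN.mul_left _
  · have hB' : (b : ℝ) + j.val * d - (a + j.val * c) * j'.val = q * B := by exact_mod_cast hB
    ext i k
    rw [Units.val_mul, Units.val_mul, uRep_val, uRep_val]
    fin_cases i <;> fin_cases k <;>
      simp [-ZMod.natCast_val, Matrix.mul_apply, Fin.sum_univ_two, ← ha, ← hb, ← hc, ← hd]
    · linear_combination hB'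
    · ring

theorem uRep_uniq (q : ℕ) [NeZero q] (δ : Gamma0 N) (x y : ZMod q)
    (h : uRep q x = mapGL ℝ (δ : SL(2, ℤ)) * uRep q y) : x = y := by
  have h1 := congrArg (fun M : GL (Fin 2) ℝ => (M : Matrix (Fin 2) (Fin 2) ℝ)) h
  simp only [Units.val_mul, uRep_val] at h1
  have e00 := congrFun (congrFun h1 0) 0
  have e01 := congrFun (congrFun h1 0) 1
  have e10 := congrFun (congrFun h1 1) 0
  simp [-ZMod.natCast_val, Matrix.mul_apply, Fin.sum_univ_two] at e00 e01 e10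
  have hq : (q : ℝ) ≠ 0 := by exact_mod_cast NeZero.ne q
  have h3 : (x.val : ℤ) = (y.val : ℤ) + (δ : SL(2, ℤ)) 0 1 * q := by
    have : (x.val : ℝ) = (y.val : ℝ) + ((δ : SL(2, ℤ)) 0 1 : ℝ) * q := by
      rw [← e00] at e01
      linear_combination e01
    exact_mod_cast this
  have h4 := congrArg (Int.cast : ℤ → ZMod q) h3
  push_cast at h4
  rw [ZMod.natCast_zmod_val, ZMod.natCast_zmod_val, ZMod.natCast_self, mul_zero, add_zero] at h4
  exact h4

/-- The data of the operator `U_q`, `q ∣ N`. -/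
def dataU (q : ℕ) [NeZero q] (hq : q ∣ N) : HData (Gamma0 N) (Gamma0 N) where
  X := ZMod q
  fin := ZMod.fintype q
  α := uRep q
  ex := exists_uRep q hq
  uniq := uRep_uniq q

theorem epsCompat_dataU (q : ℕ) [NeZero q] (hq : q ∣ N) : (dataU q hq).EpsCompat := by
  intro (j : ZMod q)
  obtain ⟨m, hm⟩ : (q : ℤ) ∣ (((-j : ZMod q).val : ℤ) + (j.val : ℤ)) := by
    rw [← ZMod.intCast_zmod_eq_zero_iff_dvd]
    push_cast
    rw [ZMod.natCast_zmod_val, ZMod.natCast_zmod_val]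
    ring
  refine ⟨(-j : ZMod q), ⟨⟨!![1, -m; 0, 1], by simp⟩, ?_⟩, ?_⟩
  · rw [Gamma0_mem]
    simp
  · change eps ℝ * uRep q j * eps ℝ = _ * uRep q (-j)
    have hm' : (((-j : ZMod q).val : ℝ)) = q * m - (j.val : ℝ) := by
      have := congrArg (Int.cast : ℤ → ℝ) hm
      push_cast at this
      linear_combination this
    ext i k
    rw [Units.val_mul, Units.val_mul, Units.val_mul, uRep_val, uRep_val]
    fin_cases i <;> fin_cases k <;>
      simp [-ZMod.natCast_val, Matrix.mul_apply, Fin.sum_univ_two, hm']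
    ring

end U

section T

theorem heckeRep_uniq [hp : Fact l.Prime] (δ : Gamma0 N) (x y : OnePoint (ZMod l))
    (h : heckeRep l x = mapGL ℝ (δ : SL(2, ℤ)) * heckeRep l y) : x = y := by
  have hl0 : (l : ℝ) ≠ 0 := by exact_mod_cast hp.out.ne_zero
  have hl1 : (1 : ℤ) < l := by exact_mod_cast hp.out.one_lt
  have h1 := congrArg (fun M : GL (Fin 2) ℝ => (M : Matrix (Fin 2) (Fin 2) ℝ)) h
  have hdet : (δ : SL(2, ℤ)) 0 0 * (δ : SL(2, ℤ)) 1 1 -
      (δ : SL(2, ℤ)) 0 1 * (δ : SL(2, ℤ)) 1 0 = 1 := by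
    have := (δ : SL(2, ℤ)).det_coe
    rwa [Matrix.det_fin_two] at this
  simp only [Units.val_mul] at h1
  have e00 := congrFun (congrFun h1 0) 0
  have e01 := congrFun (congrFun h1 0) 1
  have e10 := congrFun (congrFun h1 1) 0
  have e11 := congrFun (congrFun h1 1) 1
  induction x using OnePoint.rec with
  | infty =>
    induction y using OnePoint.rec with
    | infty => rfl
    | coe y =>
      exfalso
      simp [-ZMod.natCast_val, Matrix.mul_apply, Fin.sum_univ_two, hp.out.ne_zero] at e00 e01 e10 e11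
      -- δ = (l, *; 0, *)
      have h3 : (1 : ℤ) = (δ : SL(2, ℤ)) 1 1 * l := by
        have : (1 : ℝ) = ((δ : SL(2, ℤ)) 1 1 : ℝ) * l := by
          rw [← e10] at e11
          linear_combination e11
        exact_mod_cast this
      have h4 : (l : ℤ) ∣ 1 := ⟨_, h3.trans (mul_comm _ _)⟩
      have := Int.le_of_dvd one_pos h4
      omega
  | coe x =>
    induction y using OnePoint.rec with
    | infty =>
      exfalso
      simp [-ZMod.natCast_val, Matrix.mul_apply, Fin.sum_univ_two, hp.out.ne_zero] at e00 e01 e10 e11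
      have h3 : (1 : ℤ) = (δ : SL(2, ℤ)) 0 0 * l := by
        exact_mod_cast e00
      have h4 : (l : ℤ) ∣ 1 := ⟨_, h3.trans (mul_comm _ _)⟩
      have := Int.le_of_dvd one_pos h4
      omega
    | coe y =>
      have : NeZero l := ⟨hp.out.ne_zero⟩
      rw [heckeRep_coe, heckeRep_coe] at h
      exact congrArg _ (uRep_uniq l δ x y h)

/-- The data of the operator `T_l`, `l ∤ N`. -/
def dataT (hl : l.Prime) (hlN : ¬ l ∣ N) : HData (Gamma0 N) (Gamma0 N) :=
  haveI : Fact l.Prime := ⟨hl⟩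
  { X := OnePoint (ZMod l)
    fin := inferInstance
    α := heckeRep l
    ex := fun γ x => ⟨_, exists_cocyc hlN γ x⟩
    uniq := heckeRep_uniq }

theorem hom_dataT (hl : l.Prime) (hlN : ¬ l ∣ N) (A : Type*) [AddCommGroup A] :
    (dataT hl hlN).hom A = heckeHom hl hlN A := by
  have : Fact l.Prime := ⟨hl⟩
  refine AddMonoidHom.ext fun φ => AddMonoidHom.ext fun γ' => ?_
  obtain ⟨γ, rfl⟩ := Additive.ofMul.surjective γ'
  rw [heckeHom_apply, HData.hom_apply]
  refine Finset.sum_congr rfl fun (x : OnePoint (ZMod l)) _ => ?_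
  have := ((dataT hl hlN).eq_of_spec (γ := γ) (x := x) (cocyc_spec hlN γ x)).2
  exact congrArg (fun δ => φ (Additive.ofMul δ)) this.symm

end T

end Fermat.Agent.HeckeHom

end
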